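/-
DS-H (Hecke theory on Γ₁(N)), file 1: the group-independent predicate "holomorphic on ℍ and zero at
every rational cusp" on functions ℍ → ℂ, its stability under the slash action of rational matrices,
and the constructor of `CuspForm Γ k` from it.
-/
import Mathlib
import Fermat.Prelude.Def_ModularForm_HeckeOperator

set_option autoImplicit false

noncomputable section

namespace Fermat.Agent.DS

open UpperHalfPlane OnePoint CongruenceSubgroup ModularForm Matrix.SpecialLinearGroup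
open scoped MatrixGroups ModularForm Manifold

/-- `h` is holomorphic on `ℍ` and vanishes (in weight `k`) at every cusp of `SL(2,ℤ)`. -/
def DshCusp (k : ℤ) (h : ℍ → ℂ) : Prop :=
  MDiff h ∧ ∀ c : OnePoint ℝ, IsCusp c 𝒮ℒ → c.IsZeroAt h k

theorem dshCusp_of_cuspFormClass {F : Type*} [FunLike F ℍ ℂ] {Γ : Subgroup (GL (Fin 2) ℝ)}
    [Γ.IsArithmetic] {k : ℤ} [CuspFormClass F Γ k] (f : F) : DshCusp k ⇑f :=
  ⟨CuspFormClass.holo f, fun _ hc ↦ CuspFormClass.zero_at_cusps f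
    ((Subgroup.IsArithmetic.isCusp_iff_isCusp_SL2Z Γ).mpr hc)⟩

theorem dsh_isCusp_ratCast_smul {c : OnePoint ℝ} (hc : IsCusp c 𝒮ℒ) (g : GL (Fin 2) ℚ) :
    IsCusp (Matrix.GeneralLinearGroup.map (Rat.castHom ℝ) g • c) 𝒮ℒ := by
  rw [isCusp_SL2Z_iff] at hc ⊢
  obtain ⟨c, rfl⟩ := hc
  exact ⟨g • c, by rw [← Rat.coe_castHom, OnePoint.map_smul]⟩

namespace DshCusp

variable {k : ℤ} {h h' : ℍ → ℂ}

theorem mdiff (hh : DshCusp k h) : MDiff h := hh.1

theorem zero (k : ℤ) : DshCusp k (0 : ℍ → ℂ) := by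
  refine ⟨mdifferentiable_const (c := (0 : ℂ)), fun c _ g _ ↦ ?_⟩
  rw [SlashAction.zero_slash]
  exact Filter.zero_zeroAtFilter _

theorem add (hh : DshCusp k h) (hh' : DshCusp k h') : DshCusp k (h + h') :=
  ⟨hh.1.add hh'.1, fun c hc ↦ (hh.2 c hc).add (hh'.2 c hc)⟩

theorem smul (hh : DshCusp k h) (a : ℂ) : DshCusp k (a • h) := by
  refine ⟨hh.1.const_smul a, fun c hc g hg ↦ ?_⟩
  rw [ModularForm.smul_slash]
  exact (hh.2 c hc g hg).smul _

theorem neg (hh : DshCusp k h) : DshCusp k (-h) := by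
  simpa using hh.smul (-1)

theorem sub (hh : DshCusp k h) (hh' : DshCusp k h') : DshCusp k (h - h') := by
  rw [sub_eq_add_neg]
  exact hh.add hh'.neg

theorem sum {ι : Type*} (s : Finset ι) {f : ι → ℍ → ℂ} (hf : ∀ i ∈ s, DshCusp k (f i)) :
    DshCusp k (∑ i ∈ s, f i) := by
  classical
  induction s using Finset.induction_on with
  | empty => simpa using DshCusp.zero k
  | insert a s ha ih =>
    rw [Finset.sum_insert ha]
    exact (hf a (Finset.mem_insert_self a s)).add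
      (ih fun i hi ↦ hf i (Finset.mem_insert_of_mem hi))

/-- Stability under the slash action of a rational matrix. -/
theorem slash_rat (hh : DshCusp k h) (g : GL (Fin 2) ℚ) :
    DshCusp k (h ∣[k] (Matrix.GeneralLinearGroup.map (Rat.castHom ℝ) g)) :=
  ⟨hh.1.slash k _, fun _ hc ↦
    OnePoint.IsZeroAt.smul_iff.mp (hh.2 _ (dsh_isCusp_ratCast_smul hc g))⟩

end DshCusp

theorem dsh_mapGL_eq_map (γ : SL(2, ℤ)) :
    (mapGL ℝ γ : GL (Fin 2) ℝ) = Matrix.GeneralLinearGroup.map (Rat.castHom ℝ) (mapGL ℚ γ) := by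
  ext i j
  simp

def dshRatUpper (a b d : ℚ) (had : a * d ≠ 0) : GL (Fin 2) ℚ :=
  Matrix.GeneralLinearGroup.mkOfDetNeZero !![a, b; 0, d]
    (by rwa [Matrix.det_fin_two_of, mul_zero, sub_zero])

theorem dsh_exists_heckeMatrix_eq_map (p j : ℕ) :
    ∃ g : GL (Fin 2) ℚ, heckeMatrix p j = Matrix.GeneralLinearGroup.map (Rat.castHom ℝ) g := by
  rcases eq_or_ne p 0 with rfl | hp
  · exact ⟨1, by rw [heckeMatrix_zero, map_one]⟩
  · refine ⟨dshRatUpper 1 j p (by rw [one_mul]; exact_mod_cast hp), ?_⟩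
    ext i j
    fin_cases i <;> fin_cases j <;>
      simp [heckeMatrix, hp, dshRatUpper, upperTriangularGL,
        Matrix.GeneralLinearGroup.mkOfDetNeZero]

theorem dsh_exists_heckeDiagMatrix_eq_map (p : ℕ) :
    ∃ g : GL (Fin 2) ℚ, heckeDiagMatrix p = Matrix.GeneralLinearGroup.map (Rat.castHom ℝ) g := by
  rcases eq_or_ne p 0 with rfl | hp
  · exact ⟨1, by rw [heckeDiagMatrix_zero, map_one]⟩
  · refine ⟨dshRatUpper p 0 1 (by rw [mul_one]; exact_mod_cast hp), ?_⟩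
    ext i j
    fin_cases i <;> fin_cases j <;>
      simp [heckeDiagMatrix, hp, dshRatUpper, upperTriangularGL,
        Matrix.GeneralLinearGroup.mkOfDetNeZero]

namespace DshCusp

variable {k : ℤ} {h h' : ℍ → ℂ}

theorem slash_SL (hh : DshCusp k h) (γ : SL(2, ℤ)) : DshCusp k (h ∣[k] γ) := by
  have h1 : h ∣[k] γ = h ∣[k] (mapGL ℝ γ : GL (Fin 2) ℝ) := rfl
  rw [h1, dsh_mapGL_eq_map]
  exact hh.slash_rat _

theorem slash_heckeMatrix (hh : DshCusp k h) (p j : ℕ) : DshCusp k (h ∣[k] heckeMatrix p j) := by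
  obtain ⟨g, hg⟩ := dsh_exists_heckeMatrix_eq_map p j
  rw [hg]
  exact hh.slash_rat g

theorem slash_heckeDiagMatrix (hh : DshCusp k h) (p : ℕ) :
    DshCusp k (h ∣[k] heckeDiagMatrix p) := by
  obtain ⟨g, hg⟩ := dsh_exists_heckeDiagMatrix_eq_map p
  rw [hg]
  exact hh.slash_rat g

theorem heckeU (hh : DshCusp k h) (p : ℕ) : DshCusp k (ModularForm.heckeU k p h) := by
  rw [heckeU_def]
  exact DshCusp.sum _ fun j _ ↦ hh.slash_heckeMatrix p j

theorem heckeT (hh : DshCusp k h) (p : ℕ) : DshCusp k (ModularForm.heckeT k p h) := by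
  rw [heckeT_eq_heckeU_add]
  exact (hh.heckeU p).add (hh.slash_heckeDiagMatrix p)

theorem isZeroAtImInfty (hh : DshCusp k h) : IsZeroAtImInfty h := by
  have := hh.2 ∞ (by
    rw [isCusp_SL2Z_iff]
    exact ⟨∞, OnePoint.map_infty _⟩)
  exact isZeroAt_infty_iff.mp this

theorem isBoundedAtImInfty (hh : DshCusp k h) : IsBoundedAtImInfty h :=
  hh.isZeroAtImInfty.boundedAtFilter

end DshCusp

/-- The cusp form of level `Γ` with underlying function `h`. -/
def dshMkCusp (Γ : Subgroup SL(2, ℤ)) [Γ.FiniteIndex] (k : ℤ) (h : ℍ → ℂ) (hh : DshCusp k h)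
    (hinv : ∀ γ ∈ Γ, h ∣[k] γ = h) : CuspForm Γ k where
  toFun := h
  slash_action_eq' := by
    rintro _ ⟨γ, hγ, rfl⟩
    exact hinv γ hγ
  holo' := hh.1
  zero_at_cusps' := fun {c} hc ↦ hh.2 c ((Subgroup.IsArithmetic.isCusp_iff_isCusp_SL2Z _).mp hc)

@[simp] theorem coe_dshMkCusp (Γ : Subgroup SL(2, ℤ)) [Γ.FiniteIndex] (k : ℤ) (h : ℍ → ℂ)
    (hh : DshCusp k h) (hinv : ∀ γ ∈ Γ, h ∣[k] γ = h) : ⇑(dshMkCusp Γ k h hh hinv) = h := rfl

end Fermat.Agent.DS
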