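/-
DS-H file 2: elementary group theory of Γ₁(N) ⊴ Γ₀(N) (lower-right entry mod N), and the
function-level predicate of Γ₁(N)-invariance.
-/
import Fermat.Agent.Lib.DS.Hecke.Cusp

set_option autoImplicit false

noncomputable section

namespace Fermat.Agent.DS

open UpperHalfPlane OnePoint CongruenceSubgroup ModularForm Matrix.SpecialLinearGroup
open scoped MatrixGroups ModularForm Manifold

/-- The lower-right entry of `γ` modulo `N`. -/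
def dshD (N : ℕ) (γ : SL(2, ℤ)) : ZMod N := ((γ 1 1 : ℤ) : ZMod N)

theorem dsh_det_eq (g : SL(2, ℤ)) : g 0 0 * g 1 1 - g 0 1 * g 1 0 = 1 := by
  have h := g.det_coe
  rwa [Matrix.det_fin_two] at h

@[simp] theorem dshD_one (N : ℕ) : dshD N 1 = 1 := by simp [dshD]

theorem dshD_mul {N : ℕ} {γ : SL(2, ℤ)} (hγ : γ ∈ Gamma0 N) (γ' : SL(2, ℤ)) :
    dshD N (γ * γ') = dshD N γ * dshD N γ' := by
  have h0 : ((γ 1 0 : ℤ) : ZMod N) = 0 := Gamma0_mem.mp hγ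
  simp only [dshD, Matrix.SpecialLinearGroup.coe_mul, Matrix.mul_apply, Fin.sum_univ_two]
  push_cast
  rw [h0]
  ring

theorem dshD_mul_inv {N : ℕ} {γ : SL(2, ℤ)} (hγ : γ ∈ Gamma0 N) :
    dshD N γ * dshD N γ⁻¹ = 1 := by
  rw [← dshD_mul hγ, mul_inv_cancel, dshD_one]

theorem dshD_inv_mul {N : ℕ} {γ : SL(2, ℤ)} (hγ : γ ∈ Gamma0 N) :
    dshD N γ⁻¹ * dshD N γ = 1 := by
  rw [mul_comm, dshD_mul_inv hγ]

theorem dsh_mem_Gamma1_iff {N : ℕ} {γ : SL(2, ℤ)} :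
    γ ∈ Gamma1 N ↔ γ ∈ Gamma0 N ∧ dshD N γ = 1 := by
  rw [Gamma1_mem, Gamma0_mem]
  constructor
  · rintro ⟨_, h2, h3⟩
    exact ⟨h3, h2⟩
  · rintro ⟨h3, h2⟩
    refine ⟨?_, h2, h3⟩
    have := congrArg (Int.cast : ℤ → ZMod N) (dsh_det_eq γ)
    push_cast at this
    rw [dshD] at h2
    rw [h3, h2] at this
    simpa using this

theorem dsh_mul_inv_mem_Gamma1 {N : ℕ} {γ₁ γ₂ : SL(2, ℤ)} (h₁ : γ₁ ∈ Gamma0 N)
    (h₂ : γ₂ ∈ Gamma0 N) (hd : dshD N γ₁ = dshD N γ₂) : γ₁ * γ₂⁻¹ ∈ Gamma1 N := by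
  rw [dsh_mem_Gamma1_iff]
  refine ⟨(Gamma0 N).mul_mem h₁ ((Gamma0 N).inv_mem h₂), ?_⟩
  rw [dshD_mul h₁, hd, dshD_mul_inv h₂]

theorem dsh_conj_mem_Gamma1 {N : ℕ} {γ g : SL(2, ℤ)} (hγ : γ ∈ Gamma0 N) (hg : g ∈ Gamma1 N) :
    γ * g * γ⁻¹ ∈ Gamma1 N := by
  obtain ⟨hg0, hg1⟩ := dsh_mem_Gamma1_iff.mp hg
  refine dsh_mul_inv_mem_Gamma1 ((Gamma0 N).mul_mem hγ hg0) hγ ?_
  rw [dshD_mul hγ, hg1, mul_one]

theorem dsh_conj_mem_Gamma1' {N : ℕ} {γ g : SL(2, ℤ)} (hγ : γ ∈ Gamma0 N) (hg : g ∈ Gamma1 N) :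
    γ⁻¹ * g * γ ∈ Gamma1 N := by
  simpa using dsh_conj_mem_Gamma1 ((Gamma0 N).inv_mem hγ) hg

/-- The element of `SL(2,ℤ)` with the given entries. -/
def dshMkSL (a b c d : ℤ) (h : a * d - b * c = 1) : SL(2, ℤ) :=
  ⟨!![a, b; c, d], by rw [Matrix.det_fin_two_of]; exact h⟩

@[simp] theorem dshMkSL_apply_zero_zero (a b c d : ℤ) (h : a * d - b * c = 1) :
    dshMkSL a b c d h 0 0 = a := rfl

@[simp] theorem dshMkSL_apply_zero_one (a b c d : ℤ) (h : a * d - b * c = 1) :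
    dshMkSL a b c d h 0 1 = b := rfl

@[simp] theorem dshMkSL_apply_one_zero (a b c d : ℤ) (h : a * d - b * c = 1) :
    dshMkSL a b c d h 1 0 = c := rfl

@[simp] theorem dshMkSL_apply_one_one (a b c d : ℤ) (h : a * d - b * c = 1) :
    dshMkSL a b c d h 1 1 = d := rfl

/-- For a prime `p ∤ N` there is `γ ∈ Γ₀(N)` with lower-right entry `≡ p mod N` and lower-left
entry divisible by `N * p`. -/
theorem dsh_exists_gamma (N : ℕ) {p : ℕ} (hp : p.Prime) (hpN : ¬ p ∣ N) :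
    ∃ γ : SL(2, ℤ), γ ∈ Gamma0 N ∧ dshD N γ = (p : ZMod N) ∧ ((N : ℤ) * p) ∣ γ 1 0 := by
  have hcop : IsCoprime ((p : ℤ) + N) ((N : ℤ) * p) := by
    have h1 : IsCoprime (p : ℤ) (N : ℤ) :=
      Nat.isCoprime_iff_coprime.mpr ((Nat.Prime.coprime_iff_not_dvd hp).mpr hpN)
    refine IsCoprime.mul_right ?_ ?_
    · simpa using h1.add_mul_left_left 1
    · have := h1.symm.add_mul_left_left 1
      simpa [add_comm] using this
  obtain ⟨a, b, hab⟩ := hcop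
  refine ⟨dshMkSL a (-b) ((N : ℤ) * p) ((p : ℤ) + N) (by linear_combination hab), ?_, ?_, ?_⟩
  · rw [Gamma0_mem]
    simp
  · simp [dshD]
  · simp

/-- Γ₁(N)-invariance (in weight `k`) of a function on `ℍ`. -/
def DshInv (k : ℤ) (N : ℕ) (h : ℍ → ℂ) : Prop := ∀ γ ∈ Gamma1 N, h ∣[k] γ = h

theorem dshInv_of_slashInvariantFormClass {F : Type*} [FunLike F ℍ ℂ] {N : ℕ} {k : ℤ}
    [SlashInvariantFormClass F (Gamma1 N) k] (f : F) : DshInv k N ⇑f := fun _ hγ ↦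
  SlashInvariantFormClass.slash_action_eq f _ (Subgroup.mem_map_of_mem (mapGL ℝ) hγ)

namespace DshInv

variable {k : ℤ} {N : ℕ} {h h' : ℍ → ℂ}

theorem zero (k : ℤ) (N : ℕ) : DshInv k N 0 := fun _ _ ↦ SlashAction.zero_slash _ _

theorem add (hh : DshInv k N h) (hh' : DshInv k N h') : DshInv k N (h + h') := fun γ hγ ↦ by
  rw [SlashAction.add_slash, hh γ hγ, hh' γ hγ]

theorem neg (hh : DshInv k N h) : DshInv k N (-h) := fun γ hγ ↦ by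
  rw [SlashAction.neg_slash, hh γ hγ]

theorem sub (hh : DshInv k N h) (hh' : DshInv k N h') : DshInv k N (h - h') := by
  rw [sub_eq_add_neg]
  exact hh.add hh'.neg

theorem smul (hh : DshInv k N h) (a : ℂ) : DshInv k N (a • h) := fun γ hγ ↦ by
  rw [ModularForm.SL_smul_slash, hh γ hγ]

/-- Slashing with two elements of `Γ₀(N)` having the same lower-right entry mod `N` gives the same
result. -/
theorem slash_eq_of_D_eq (hh : DshInv k N h) {γ₁ γ₂ : SL(2, ℤ)} (h₁ : γ₁ ∈ Gamma0 N)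
    (h₂ : γ₂ ∈ Gamma0 N) (hd : dshD N γ₁ = dshD N γ₂) : h ∣[k] γ₁ = h ∣[k] γ₂ := by
  have := hh _ (dsh_mul_inv_mem_Gamma1 h₁ h₂ hd)
  calc h ∣[k] γ₁ = h ∣[k] (γ₁ * γ₂⁻¹ * γ₂) := by rw [inv_mul_cancel_right]
    _ = (h ∣[k] (γ₁ * γ₂⁻¹)) ∣[k] γ₂ := SlashAction.slash_mul _ _ _ _
    _ = h ∣[k] γ₂ := by rw [this]

theorem slash (hh : DshInv k N h) {γ : SL(2, ℤ)} (hγ : γ ∈ Gamma0 N) :
    DshInv k N (h ∣[k] γ) := fun g hg ↦ by
  have := hh _ (dsh_conj_mem_Gamma1 hγ hg)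
  calc (h ∣[k] γ) ∣[k] g = h ∣[k] (γ * g) := (SlashAction.slash_mul _ _ _ _).symm
    _ = h ∣[k] (γ * g * γ⁻¹ * γ) := by rw [inv_mul_cancel_right]
    _ = (h ∣[k] (γ * g * γ⁻¹)) ∣[k] γ := SlashAction.slash_mul _ _ _ _
    _ = h ∣[k] γ := by rw [this]

end DshInv

end Fermat.Agent.DS
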