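/-
DS-H file 3: the coset computation for `T_p` on `Γ₁(N)` (p ∤ N): the `p + 1` representatives
`[1,j;0,p]` (j mod p), `[p,0;0,1]` are permuted by right multiplication with `g ∈ Γ₀(N)`, up to left
multiplication by elements of `Γ₀(N)` whose lower-right entries are tracked modulo `N`.
(Adapted from the Γ₀(N) computation in the Prelude.)
-/
import Fermat.Agent.Lib.DS.Hecke.Gamma1

set_option autoImplicit false

noncomputable section

namespace Fermat.Agent.DS

open UpperHalfPlane OnePoint CongruenceSubgroup ModularForm Matrix.SpecialLinearGroup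
open scoped MatrixGroups ModularForm Manifold

theorem dsh_mapGL_apply (g : SL(2, ℤ)) (i j : Fin 2) :
    (mapGL ℝ g : GL (Fin 2) ℝ) i j = ((g i j : ℤ) : ℝ) := by
  simp

section commutation

variable {p : ℕ} (hp : p ≠ 0)
include hp

theorem dsh_heckeMatrix_mul_of_eq (g : SL(2, ℤ)) (j j' : ℕ) (e : ℤ)
    (he : g 0 1 + j * g 1 1 = j' * (g 0 0 + j * g 1 0) + p * e) :
    ∃ g' : SL(2, ℤ), g' 1 0 = p * g 1 0 ∧ g' 1 1 = g 1 1 - g 1 0 * j' ∧
      heckeMatrix p j * mapGL ℝ g = mapGL ℝ g' * heckeMatrix p j' := by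
  have hdet := dsh_det_eq g
  refine ⟨dshMkSL (g 0 0 + j * g 1 0) e (p * g 1 0) (g 1 1 - g 1 0 * j')
    (by linear_combination hdet + (g 1 0) * he), rfl, rfl, ?_⟩
  ext i j
  fin_cases i <;> fin_cases j <;>
    simp [hp, Matrix.mul_apply, Fin.sum_univ_two]
  all_goals first
    | (have := congrArg (Int.cast : ℤ → ℝ) he; push_cast at this ⊢; linear_combination this)
    | (have := congrArg (Int.cast : ℤ → ℝ) he; push_cast at this ⊢; linear_combination -this)
    | ring1

theorem dsh_heckeMatrix_mul_of_eq' (g : SL(2, ℤ)) (j : ℕ) (e : ℤ)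
    (he : g 0 0 + j * g 1 0 = p * e) :
    ∃ g' : SL(2, ℤ), g' 1 0 = g 1 0 ∧ g' 1 1 = p * g 1 1 ∧
      heckeMatrix p j * mapGL ℝ g = mapGL ℝ g' * heckeDiagMatrix p := by
  have hdet := dsh_det_eq g
  refine ⟨dshMkSL e (g 0 1 + j * g 1 1) (g 1 0) (p * g 1 1)
    (by linear_combination hdet - (g 1 1) * he), rfl, rfl, ?_⟩
  ext i j
  fin_cases i <;> fin_cases j <;>
    simp [hp, Matrix.mul_apply, Fin.sum_univ_two]
  all_goals first
    | (have := congrArg (Int.cast : ℤ → ℝ) he; push_cast at this ⊢; linear_combination this)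
    | (have := congrArg (Int.cast : ℤ → ℝ) he; push_cast at this ⊢; linear_combination -this)
    | ring1

theorem dsh_heckeDiagMatrix_mul_of_eq (g : SL(2, ℤ)) (j' : ℕ) (e : ℤ)
    (he : g 1 1 = g 1 0 * j' + p * e) :
    ∃ g' : SL(2, ℤ), g' 1 0 = g 1 0 ∧ g' 1 1 = e ∧
      heckeDiagMatrix p * mapGL ℝ g = mapGL ℝ g' * heckeMatrix p j' := by
  have hdet := dsh_det_eq g
  refine ⟨dshMkSL (p * g 0 0) (g 0 1 - g 0 0 * j') (g 1 0) e
    (by linear_combination hdet - (g 0 0) * he), rfl, rfl, ?_⟩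
  ext i j
  fin_cases i <;> fin_cases j <;>
    simp [hp, Matrix.mul_apply, Fin.sum_univ_two]
  all_goals first
    | (have := congrArg (Int.cast : ℤ → ℝ) he; push_cast at this ⊢; linear_combination this)
    | (have := congrArg (Int.cast : ℤ → ℝ) he; push_cast at this ⊢; linear_combination -this)
    | ring1

theorem dsh_heckeDiagMatrix_mul_of_eq' (g : SL(2, ℤ)) (e : ℤ) (he : g 1 0 = p * e) :
    ∃ g' : SL(2, ℤ), g' 1 0 = e ∧ g' 1 1 = g 1 1 ∧
      heckeDiagMatrix p * mapGL ℝ g = mapGL ℝ g' * heckeDiagMatrix p := by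
  have hdet := dsh_det_eq g
  refine ⟨dshMkSL (g 0 0) (p * g 0 1) e (g 1 1)
    (by linear_combination hdet + (g 0 1) * he), rfl, rfl, ?_⟩
  ext i j
  fin_cases i <;> fin_cases j <;>
    simp [hp, Matrix.mul_apply, Fin.sum_univ_two]
  all_goals first
    | (have := congrArg (Int.cast : ℤ → ℝ) he; push_cast at this ⊢; linear_combination this)
    | (have := congrArg (Int.cast : ℤ → ℝ) he; push_cast at this ⊢; linear_combination -this)
    | ring1

end commutation

section orbit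

variable {p : ℕ}

/-- The `p + 1` standard representatives, indexed by `ℙ¹(𝔽_p)`. -/
def dshRep (p : ℕ) (x : OnePoint (ZMod p)) : GL (Fin 2) ℝ :=
  x.elim (heckeDiagMatrix p) (fun j ↦ heckeMatrix p j.val)

@[simp] theorem dshRep_infty : dshRep p ∞ = heckeDiagMatrix p := rfl

@[simp] theorem dshRep_coe (j : ZMod p) : dshRep p j = heckeMatrix p j.val := rfl

/-- The "diamond weight" of a representative: `p` at `∞`, `1` at the finite points. -/
def dshV (N p : ℕ) (x : OnePoint (ZMod p)) : ZMod N :=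
  x.elim (p : ZMod N) (fun _ ↦ 1)

@[simp] theorem dshV_infty (N : ℕ) : dshV N p ∞ = (p : ZMod N) := rfl

@[simp] theorem dshV_coe (N : ℕ) (j : ZMod p) : dshV N p j = 1 := rfl

theorem dsh_heckeU_eq_sum_zmod [NeZero p] (k : ℤ) (f : ℍ → ℂ) :
    heckeU k p f = ∑ x : ZMod p, f ∣[k] heckeMatrix p x.val := by
  rw [heckeU_def]
  refine Finset.sum_nbij' (fun j : ℕ ↦ (j : ZMod p)) (fun x : ZMod p ↦ x.val)
    (fun _ _ ↦ Finset.mem_univ _) (fun x _ ↦ Finset.mem_range.mpr x.val_lt) (fun j hj ↦ ?_)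
    (fun x _ ↦ ?_) (fun j hj ↦ ?_)
  · exact ZMod.val_cast_of_lt (Finset.mem_range.mp hj)
  · exact ZMod.natCast_zmod_val x
  · rw [ZMod.val_cast_of_lt (Finset.mem_range.mp hj)]

variable [Fact p.Prime]

variable (p) in
/-- The reduction mod `p` of `g`, transposed-inverted so that right multiplication on the
representatives becomes the standard left action on `ℙ¹(𝔽_p)`. -/
def dshRed (g : SL(2, ℤ)) : GL (Fin 2) (ZMod p) :=
  Matrix.GeneralLinearGroup.mkOfDetNeZero
    !![((g 1 1 : ℤ) : ZMod p), ((g 0 1 : ℤ) : ZMod p); ((g 1 0 : ℤ) : ZMod p), ((g 0 0 : ℤ) : ZMod p)]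
    (by
      have := congrArg (Int.cast : ℤ → ZMod p) (dsh_det_eq g)
      push_cast at this
      rw [Matrix.det_fin_two_of,
        show ((g 1 1 : ℤ) : ZMod p) * ((g 0 0 : ℤ) : ZMod p)
            - ((g 0 1 : ℤ) : ZMod p) * ((g 1 0 : ℤ) : ZMod p) = 1 by linear_combination this]
      exact one_ne_zero)

@[simp] theorem dshRed_apply_zero_zero (g : SL(2, ℤ)) :
    dshRed p g 0 0 = ((g 1 1 : ℤ) : ZMod p) := by
  simp [dshRed]

@[simp] theorem dshRed_apply_zero_one (g : SL(2, ℤ)) :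
    dshRed p g 0 1 = ((g 0 1 : ℤ) : ZMod p) := by
  simp [dshRed]

@[simp] theorem dshRed_apply_one_zero (g : SL(2, ℤ)) :
    dshRed p g 1 0 = ((g 1 0 : ℤ) : ZMod p) := by
  simp [dshRed]

@[simp] theorem dshRed_apply_one_one (g : SL(2, ℤ)) :
    dshRed p g 1 1 = ((g 0 0 : ℤ) : ZMod p) := by
  simp [dshRed]

theorem dsh_heckeT_eq_sum_onePoint (k : ℤ) (f : ℍ → ℂ) :
    heckeT k p f = ∑ x : OnePoint (ZMod p), f ∣[k] dshRep p x := by
  have : NeZero p := ⟨(Fact.out : p.Prime).ne_zero⟩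
  rw [heckeT_eq_heckeU_add, dsh_heckeU_eq_sum_zmod, add_comm]
  exact (Fintype.sum_option (fun x : OnePoint (ZMod p) ↦ f ∣[k] dshRep p x)).symm

/-- The coset computation: for `g ∈ Γ₀(N)` and a representative `R x`, `R x * g = g' * R (g • x)`
with `g' ∈ Γ₀(N)` and `d(g') * v(x) = d(g) * v(g • x)` in `ZMod N`. -/
theorem dsh_rep_mul {N : ℕ} (hpN : ¬ p ∣ N) (g : SL(2, ℤ)) (hg : g ∈ Gamma0 N)
    (x : OnePoint (ZMod p)) :
    ∃ g' : SL(2, ℤ), g' ∈ Gamma0 N ∧
      dshD N g' * dshV N p x = dshD N g * dshV N p (dshRed p g • x) ∧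
      dshRep p x * mapGL ℝ g = mapGL ℝ g' * dshRep p (dshRed p g • x) := by
  have hp : p ≠ 0 := (Fact.out : p.Prime).ne_zero
  have hcN : ((g 1 0 : ℤ) : ZMod N) = 0 := Gamma0_mem.mp hg
  induction x using OnePoint.rec with
  | infty =>
    rw [OnePoint.smul_infty_eq_ite]
    by_cases hc : ((g 1 0 : ℤ) : ZMod p) = 0
    · rw [if_pos (by simpa using hc), dshRep_infty]
      obtain ⟨e, he⟩ := (ZMod.intCast_zmod_eq_zero_iff_dvd _ _).mp hc
      obtain ⟨g', hg', hg'', hmul⟩ := dsh_heckeDiagMatrix_mul_of_eq' hp g e he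
      refine ⟨g', ?_, ?_, hmul⟩
      · rw [Gamma0_mem, hg', ZMod.intCast_zmod_eq_zero_iff_dvd]
        have hcop : IsCoprime (N : ℤ) (p : ℤ) :=
          Nat.isCoprime_iff_coprime.mpr ((Nat.Prime.coprime_iff_not_dvd Fact.out).mpr hpN).symm
        have hgN : (N : ℤ) ∣ g 1 0 := (ZMod.intCast_zmod_eq_zero_iff_dvd _ _).mp hcN
        exact hcop.dvd_of_dvd_mul_left (he ▸ hgN)
      · rw [dshD, dshD, hg'']
    · rw [if_neg (by simpa using hc), dshRep_infty, dshRep_coe]
      set y : ZMod p := dshRed p g 0 0 / dshRed p g 1 0 with hy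
      obtain ⟨e, he⟩ : (p : ℤ) ∣ g 1 1 - g 1 0 * y.val := by
        rw [← ZMod.intCast_zmod_eq_zero_iff_dvd]
        push_cast
        rw [ZMod.natCast_zmod_val, hy, dshRed_apply_zero_zero, dshRed_apply_one_zero,
          mul_div_cancel₀ _ hc, sub_self]
      obtain ⟨g', hg', hg'', hmul⟩ :=
        dsh_heckeDiagMatrix_mul_of_eq hp g y.val e (by linear_combination he)
      refine ⟨g', ?_, ?_, hmul⟩
      · rw [Gamma0_mem, hg', hcN]
      · rw [dshV_infty, dshV_coe, dshD, dshD, hg'', mul_one]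
        have := congrArg (Int.cast : ℤ → ZMod N) he
        push_cast at this
        rw [hcN] at this
        linear_combination -this
  | coe j =>
    rw [OnePoint.smul_some_eq_ite]
    by_cases h : dshRed p g 1 0 * j + dshRed p g 1 1 = 0
    · rw [if_pos h, dshRep_infty, dshRep_coe]
      rw [dshRed_apply_one_zero, dshRed_apply_one_one] at h
      obtain ⟨e, he⟩ : (p : ℤ) ∣ g 0 0 + j.val * g 1 0 := by
        rw [← ZMod.intCast_zmod_eq_zero_iff_dvd]
        push_cast
        rw [ZMod.natCast_zmod_val]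
        linear_combination h
      obtain ⟨g', hg', hg'', hmul⟩ := dsh_heckeMatrix_mul_of_eq' hp g j.val e he
      refine ⟨g', ?_, ?_, hmul⟩
      · rw [Gamma0_mem, hg', hcN]
      · rw [dshV_infty, dshV_coe, dshD, dshD, hg'', mul_one]
        push_cast
        ring
    · rw [if_neg h, dshRep_coe, dshRep_coe]
      set y : ZMod p := (dshRed p g 0 0 * j + dshRed p g 0 1) /
        (dshRed p g 1 0 * j + dshRed p g 1 1) with hy
      obtain ⟨e, he⟩ : (p : ℤ) ∣ g 0 1 + j.val * g 1 1 - y.val * (g 0 0 + j.val * g 1 0) := by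
        rw [← ZMod.intCast_zmod_eq_zero_iff_dvd]
        push_cast
        rw [ZMod.natCast_zmod_val, ZMod.natCast_zmod_val,
          show ((g 0 0 : ℤ) : ZMod p) + j * ((g 1 0 : ℤ) : ZMod p)
            = dshRed p g 1 0 * j + dshRed p g 1 1 by
              rw [dshRed_apply_one_zero, dshRed_apply_one_one]; ring,
          hy, div_mul_cancel₀ _ h, dshRed_apply_zero_zero, dshRed_apply_zero_one]
        ring
      obtain ⟨g', hg', hg'', hmul⟩ :=
        dsh_heckeMatrix_mul_of_eq hp g j.val y.val e (by linear_combination he)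
      refine ⟨g', ?_, ?_, hmul⟩
      · rw [Gamma0_mem, hg']
        push_cast
        rw [hcN, mul_zero]
      · rw [dshV_coe, dshV_coe, dshD, dshD, hg'', mul_one, mul_one]
        push_cast
        rw [hcN, zero_mul, sub_zero]

end orbit

end Fermat.Agent.DS
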