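/-
DS-H file 4: the Hecke operator `T_p` (p ∤ N) on Γ₁(N)-invariant functions, relative to a chosen
`γ ∈ Γ₀(N)` with lower-right entry `≡ p mod N`:  `T_p h = ∑_j h∣[1,j;0,p] + (h∣γ)∣[p,0;0,1]`.
Main result: `(T_p h)∣g = T_p (h∣g)` for `g ∈ Γ₀(N)`; in particular `T_p` preserves Γ₁(N)-invariance
and commutes with the diamond operators.
-/
import Fermat.Agent.Lib.DS.Hecke.Coset

set_option autoImplicit false

noncomputable section

namespace Fermat.Agent.DS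

open UpperHalfPlane OnePoint CongruenceSubgroup ModularForm Matrix.SpecialLinearGroup
open scoped MatrixGroups ModularForm Manifold

/-- `T_p` on functions, relative to `γ` (meant: `γ ∈ Γ₀(N)` with lower-right entry `≡ p`). -/
def dshTWith (k : ℤ) (p : ℕ) (γ : SL(2, ℤ)) (h : ℍ → ℂ) : ℍ → ℂ :=
  heckeU k p h + (h ∣[k] γ) ∣[k] heckeDiagMatrix p

theorem dshTWith_def (k : ℤ) (p : ℕ) (γ : SL(2, ℤ)) (h : ℍ → ℂ) :
    dshTWith k p γ h = heckeU k p h + (h ∣[k] γ) ∣[k] heckeDiagMatrix p := rfl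

/-- The element of `Γ₀(N)` attached to a representative: `γ` at `∞`, `1` at finite points. -/
def dshGamOf {p : ℕ} (γ : SL(2, ℤ)) (x : OnePoint (ZMod p)) : SL(2, ℤ) :=
  x.elim γ (fun _ ↦ 1)

@[simp] theorem dshGamOf_infty {p : ℕ} (γ : SL(2, ℤ)) :
    dshGamOf γ (∞ : OnePoint (ZMod p)) = γ := rfl

@[simp] theorem dshGamOf_coe {p : ℕ} (γ : SL(2, ℤ)) (j : ZMod p) :
    dshGamOf γ (j : OnePoint (ZMod p)) = 1 := rfl

theorem dshGamOf_mem {N p : ℕ} {γ : SL(2, ℤ)} (hγ : γ ∈ Gamma0 N) (x : OnePoint (ZMod p)) :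
    dshGamOf γ x ∈ Gamma0 N := by
  induction x using OnePoint.rec with
  | infty => exact hγ
  | coe j => exact (Gamma0 N).one_mem

theorem dshD_dshGamOf {N p : ℕ} {γ : SL(2, ℤ)} (hγd : dshD N γ = (p : ZMod N))
    (x : OnePoint (ZMod p)) : dshD N (dshGamOf γ x) = dshV N p x := by
  induction x using OnePoint.rec with
  | infty => exact hγd
  | coe j => simp

theorem dshTWith_eq_sum {p : ℕ} [Fact p.Prime] (k : ℤ) (γ : SL(2, ℤ)) (h : ℍ → ℂ) :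
    dshTWith k p γ h = ∑ x : OnePoint (ZMod p), (h ∣[k] dshGamOf γ x) ∣[k] dshRep p x := by
  have : NeZero p := ⟨(Fact.out : p.Prime).ne_zero⟩
  rw [dshTWith_def, dsh_heckeU_eq_sum_zmod, add_comm]
  refine Eq.trans ?_ (Fintype.sum_option
    (fun x : OnePoint (ZMod p) ↦ (h ∣[k] dshGamOf γ x) ∣[k] dshRep p x)).symm
  congr 1
  refine Finset.sum_congr rfl fun j _ ↦ ?_
  change h ∣[k] heckeMatrix p j.val = (h ∣[k] (1 : SL(2, ℤ))) ∣[k] heckeMatrix p j.val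
  rw [SlashAction.slash_one]

/-- `T_p` commutes with the slash action of `Γ₀(N)` on Γ₁(N)-invariant functions. -/
theorem dshTWith_slash {N p : ℕ} [Fact p.Prime] (hpN : ¬ p ∣ N) {k : ℤ} {γ : SL(2, ℤ)}
    (hγ : γ ∈ Gamma0 N) (hγd : dshD N γ = (p : ZMod N)) {h : ℍ → ℂ} (hh : DshInv k N h)
    {g : SL(2, ℤ)} (hg : g ∈ Gamma0 N) :
    (dshTWith k p γ h) ∣[k] g = dshTWith k p γ (h ∣[k] g) := by
  rw [dshTWith_eq_sum, dshTWith_eq_sum]
  have h1 : (∑ x : OnePoint (ZMod p), (h ∣[k] dshGamOf γ x) ∣[k] dshRep p x) ∣[k] g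
      = (∑ x : OnePoint (ZMod p), (h ∣[k] dshGamOf γ x) ∣[k] dshRep p x) ∣[k]
        (mapGL ℝ g : GL (Fin 2) ℝ) := rfl
  rw [h1, SlashAction.sum_slash]
  calc ∑ x : OnePoint (ZMod p), ((h ∣[k] dshGamOf γ x) ∣[k] dshRep p x) ∣[k]
        (mapGL ℝ g : GL (Fin 2) ℝ)
      = ∑ x : OnePoint (ZMod p),
          ((h ∣[k] g) ∣[k] dshGamOf γ (dshRed p g • x)) ∣[k] dshRep p (dshRed p g • x) := by
        refine Finset.sum_congr rfl fun x _ ↦ ?_
        obtain ⟨g', hg', hd, hmul⟩ := dsh_rep_mul hpN g hg x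
        rw [← SlashAction.slash_mul, hmul, SlashAction.slash_mul]
        congr 1
        have h2 : (h ∣[k] dshGamOf γ x) ∣[k] (mapGL ℝ g' : GL (Fin 2) ℝ)
            = (h ∣[k] dshGamOf γ x) ∣[k] g' := rfl
        rw [h2, ← SlashAction.slash_mul, ← SlashAction.slash_mul]
        refine hh.slash_eq_of_D_eq ((Gamma0 N).mul_mem (dshGamOf_mem hγ x) hg')
          ((Gamma0 N).mul_mem hg (dshGamOf_mem hγ _)) ?_
        rw [dshD_mul (dshGamOf_mem hγ x), dshD_mul hg, dshD_dshGamOf hγd, dshD_dshGamOf hγd,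
          mul_comm, hd]
    _ = ∑ x : OnePoint (ZMod p), ((h ∣[k] g) ∣[k] dshGamOf γ x) ∣[k] dshRep p x :=
        Equiv.sum_comp (MulAction.toPerm (dshRed p g))
          (fun x ↦ ((h ∣[k] g) ∣[k] dshGamOf γ x) ∣[k] dshRep p x)

/-- `T_p` preserves Γ₁(N)-invariance. -/
theorem DshInv.dshTWith {N p : ℕ} (hp : p.Prime) (hpN : ¬ p ∣ N) {k : ℤ} {γ : SL(2, ℤ)}
    (hγ : γ ∈ Gamma0 N) (hγd : dshD N γ = (p : ZMod N)) {h : ℍ → ℂ} (hh : DshInv k N h) :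
    DshInv k N (dshTWith k p γ h) := fun g hg ↦ by
  have : Fact p.Prime := ⟨hp⟩
  rw [dshTWith_slash hpN hγ hγd hh (Gamma1_in_Gamma0 N hg), hh g hg]

/-- `T_p` does not depend on the choice of `γ`. -/
theorem dshTWith_congr {N p : ℕ} {k : ℤ} {γ γ' : SL(2, ℤ)} (hγ : γ ∈ Gamma0 N)
    (hγ' : γ' ∈ Gamma0 N) (hd : dshD N γ = dshD N γ') {h : ℍ → ℂ} (hh : DshInv k N h) :
    dshTWith k p γ h = dshTWith k p γ' h := by
  rw [dshTWith_def, dshTWith_def, hh.slash_eq_of_D_eq hγ hγ' hd]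

theorem DshCusp.dshTWith {k : ℤ} {h : ℍ → ℂ} (hh : DshCusp k h) (p : ℕ) (γ : SL(2, ℤ)) :
    DshCusp k (dshTWith k p γ h) :=
  (hh.heckeU p).add ((hh.slash_SL γ).slash_heckeDiagMatrix p)

theorem dshTWith_add (k : ℤ) (p : ℕ) (γ : SL(2, ℤ)) (h h' : ℍ → ℂ) :
    dshTWith k p γ (h + h') = dshTWith k p γ h + dshTWith k p γ h' := by
  simp only [dshTWith_def, heckeU_add, SlashAction.add_slash]
  abel

theorem dshTWith_smul (k : ℤ) (p : ℕ) (γ : SL(2, ℤ)) (c : ℂ) (h : ℍ → ℂ) :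
    dshTWith k p γ (c • h) = c • dshTWith k p γ h := by
  rw [dshTWith_def, dshTWith_def, heckeU_smul, ModularForm.SL_smul_slash, ModularForm.smul_slash,
    σ_heckeDiagMatrix, ContinuousAlgEquiv.refl_apply, smul_add]

theorem dshTWith_neg (k : ℤ) (p : ℕ) (γ : SL(2, ℤ)) (h : ℍ → ℂ) :
    dshTWith k p γ (-h) = -dshTWith k p γ h := by
  simp only [dshTWith_def, heckeU_neg, SlashAction.neg_slash, neg_add]

theorem dshTWith_sub (k : ℤ) (p : ℕ) (γ : SL(2, ℤ)) (h h' : ℍ → ℂ) :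
    dshTWith k p γ (h - h') = dshTWith k p γ h - dshTWith k p γ h' := by
  rw [sub_eq_add_neg, dshTWith_add, dshTWith_neg, ← sub_eq_add_neg]

@[simp] theorem dshTWith_zero (k : ℤ) (p : ℕ) (γ : SL(2, ℤ)) :
    dshTWith k p γ (0 : ℍ → ℂ) = 0 := by
  simp [dshTWith_def]

end Fermat.Agent.DS
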