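/-
DS-H file 5: q-expansions (period 1) at the level of functions: "nice" functions (1-periodic,
holomorphic, bounded at i∞), linearity of the coefficients, the coefficients of `U_p h` and of
`h∣[p,0;0,1]`, and the identity principle.
-/
import Fermat.Agent.Lib.DS.Hecke.Operators
import Fermat.Prelude.Def_FLTPrelim_Modularity
import Fermat.Prelude.Thm_UpperHalfPlane_qCoeff_heckeT
import Fermat.Prelude.Thm_UpperHalfPlane_qCoeff_heckeU
import Fermat.Prelude.Thm_ModularForm_periodic_heckeT_comp_ofComplex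
import Fermat.Prelude.Thm_ModularForm_periodic_heckeU_comp_ofComplex
import Fermat.Prelude.Thm_ModularForm_mdifferentiable_heckeT
import Fermat.Prelude.Thm_ModularForm_mdifferentiable_heckeU
import Fermat.Prelude.Thm_ModularForm_isBoundedAtImInfty_heckeT
import Fermat.Prelude.Thm_ModularForm_isBoundedAtImInfty_heckeU

set_option autoImplicit false

noncomputable section

namespace Fermat.Agent.DS

open UpperHalfPlane OnePoint CongruenceSubgroup ModularForm Matrix.SpecialLinearGroup
open ModularFormClass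
open scoped MatrixGroups ModularForm Manifold

/-- 1-periodic, holomorphic, bounded at `i∞`. -/
structure DshNice (h : ℍ → ℂ) : Prop where
  per : Function.Periodic (h ∘ ofComplex) 1
  hol : MDiff h
  bdd : IsBoundedAtImInfty h

namespace DshNice

variable {h h' : ℍ → ℂ}

theorem analyticAt (hh : DshNice h) : AnalyticAt ℂ (cuspFunction 1 h) 0 :=
  analyticAt_cuspFunction_zero one_pos hh.per hh.hol hh.bdd

theorem zero : DshNice (0 : ℍ → ℂ) where
  per := fun _ ↦ rfl
  hol := mdifferentiable_const (c := (0 : ℂ))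
  bdd := Filter.const_boundedAtFilter _ (0 : ℂ)

theorem add (hh : DshNice h) (hh' : DshNice h') : DshNice (h + h') where
  per := hh.per.add hh'.per
  hol := hh.hol.add hh'.hol
  bdd := hh.bdd.add hh'.bdd

theorem smul (hh : DshNice h) (c : ℂ) : DshNice (c • h) where
  per := hh.per.smul c
  hol := hh.hol.const_smul c
  bdd := hh.bdd.smul c

theorem neg (hh : DshNice h) : DshNice (-h) := by
  simpa using hh.smul (-1)

theorem sub (hh : DshNice h) (hh' : DshNice h') : DshNice (h - h') := by
  rw [sub_eq_add_neg]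
  exact hh.add hh'.neg

theorem heckeU (hh : DshNice h) (k : ℤ) (p : ℕ) : DshNice (heckeU k p h) where
  per := periodic_heckeU_comp_ofComplex hh.per k p
  hol := mdifferentiable_heckeU hh.hol k p
  bdd := isBoundedAtImInfty_heckeU hh.bdd k p

theorem heckeT (hh : DshNice h) (k : ℤ) (p : ℕ) : DshNice (heckeT k p h) where
  per := periodic_heckeT_comp_ofComplex hh.per k p
  hol := mdifferentiable_heckeT hh.hol k p
  bdd := isBoundedAtImInfty_heckeT hh.bdd k p

theorem slash_heckeDiagMatrix (hh : DshNice h) (k : ℤ) (p : ℕ) :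
    DshNice (h ∣[k] heckeDiagMatrix p) := by
  have : h ∣[k] heckeDiagMatrix p = ModularForm.heckeT k p h - ModularForm.heckeU k p h := by
    rw [heckeT_eq_heckeU_add, add_sub_cancel_left]
  rw [this]
  exact (hh.heckeT k p).sub (hh.heckeU k p)

theorem hasSum (hh : DshNice h) (τ : ℍ) :
    HasSum (fun m : ℕ ↦ qCoeff h m • Function.Periodic.qParam 1 τ ^ m) (h τ) :=
  hasSum_qExpansion one_pos hh.per hh.hol hh.bdd τ

/-- Identity principle: nice functions with the same q-coefficients are equal. -/
theorem ext_qCoeff (hh : DshNice h) (hh' : DshNice h') (H : ∀ n, qCoeff h n = qCoeff h' n) :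
    h = h' := by
  funext τ
  have h1 := hh.hasSum τ
  have h2 := hh'.hasSum τ
  simp only [H] at h1
  exact h1.unique h2

theorem qCoeff_add (hh : DshNice h) (hh' : DshNice h') (n : ℕ) :
    qCoeff (h + h') n = qCoeff h n + qCoeff h' n := by
  simp only [qCoeff, qExpansion_add hh.analyticAt hh'.analyticAt, map_add]

theorem qCoeff_sub (hh : DshNice h) (hh' : DshNice h') (n : ℕ) :
    qCoeff (h - h') n = qCoeff h n - qCoeff h' n := by
  simp only [qCoeff, qExpansion_sub hh.analyticAt hh'.analyticAt, map_sub]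

theorem qCoeff_smul (hh : DshNice h) (c : ℂ) (n : ℕ) :
    qCoeff (c • h) n = c * qCoeff h n := by
  simp only [qCoeff, qExpansion_smul hh.analyticAt, PowerSeries.coeff_smul, smul_eq_mul]

theorem qCoeff_heckeU (hh : DshNice h) (k : ℤ) {p : ℕ} (hp : p ≠ 0) (n : ℕ) :
    qCoeff (ModularForm.heckeU k p h) n = qCoeff h (n * p) :=
  UpperHalfPlane.qCoeff_heckeU hh.per hh.hol hh.bdd k hp n

theorem qCoeff_slash_heckeDiagMatrix (hh : DshNice h) (k : ℤ) {p : ℕ} (hp : p ≠ 0) (n : ℕ) :
    qCoeff (h ∣[k] heckeDiagMatrix p) n =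
      if p ∣ n then (p : ℂ) ^ (k - 1) * qCoeff h (n / p) else 0 := by
  have : h ∣[k] heckeDiagMatrix p = ModularForm.heckeT k p h - ModularForm.heckeU k p h := by
    rw [heckeT_eq_heckeU_add, add_sub_cancel_left]
  rw [this, (hh.heckeT k p).qCoeff_sub (hh.heckeU k p),
    UpperHalfPlane.qCoeff_heckeT hh.per hh.hol hh.bdd k hp n,
    UpperHalfPlane.qCoeff_heckeU hh.per hh.hol hh.bdd k hp n, coeffHeckeT_apply, coeffHeckeU_apply,
    add_sub_cancel_left]

end DshNice

@[simp] theorem dsh_qCoeff_zero (n : ℕ) : qCoeff (0 : ℍ → ℂ) n = 0 := by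
  simp [qCoeff, qExpansion_zero]

/-- Γ₁(N)-invariant functions are 1-periodic. -/
theorem DshInv.periodic {k : ℤ} {N : ℕ} {h : ℍ → ℂ} (hh : DshInv k N h) :
    Function.Periodic (h ∘ ofComplex) 1 := by
  let F : SlashInvariantForm (Gamma1 N) k :=
    { toFun := h
      slash_action_eq' := by
        rintro _ ⟨γ, hγ, rfl⟩
        exact hh γ hγ }
  have h1 : (1 : ℝ) ∈ ((Gamma1 N : Subgroup SL(2, ℤ)) : Subgroup (GL (Fin 2) ℝ)).strictPeriods := by
    rw [CongruenceSubgroup.strictPeriods_Gamma1]
    exact AddSubgroup.mem_zmultiples 1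
  exact SlashInvariantFormClass.periodic_comp_ofComplex F h1

theorem dshNice_of_inv_cusp {k : ℤ} {N : ℕ} {h : ℍ → ℂ} (hinv : DshInv k N h)
    (hc : DshCusp k h) : DshNice h where
  per := hinv.periodic
  hol := hc.1
  bdd := hc.isBoundedAtImInfty

/-- The constant coefficient of a function vanishing at `i∞` is zero. -/
theorem DshNice.qCoeff_zero_of_isZeroAtImInfty {h : ℍ → ℂ} (hh : DshNice h)
    (h0 : IsZeroAtImInfty h) : qCoeff h 0 = 0 := by
  rw [qCoeff, qExpansion_coeff_zero one_pos hh.analyticAt hh.per, h0.valueAtInfty_eq_zero]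

end Fermat.Agent.DS
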