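/-
DS-H file 6: the Sturm bound for Γ₁(N) at function level, and LEMMA (V_p):
if `g ∈ S_k(Γ₁(N))`, `p ∤ N` prime and `g∣[p,0;0,1]` is again Γ₁(N)-invariant, then `g = 0`.
-/
import Fermat.Agent.Lib.DS.Hecke.QExp
import Fermat.Prelude.Thm_ModularForm_sturm_bound_of_isArithmetic

set_option autoImplicit false

noncomputable section

namespace Fermat.Agent.DS

open UpperHalfPlane OnePoint CongruenceSubgroup ModularForm Matrix.SpecialLinearGroup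
open ModularFormClass
open scoped MatrixGroups ModularForm Manifold

/-- Sturm bound for `Γ₁(N)`, function-level form. -/
theorem dsh_sturm (N : ℕ) [NeZero N] (k : ℤ) :
    ∃ B : ℕ, ∀ h : ℍ → ℂ, DshInv k N h → DshCusp k h → (∀ n ≤ B, qCoeff h n = 0) → h = 0 := by
  refine ⟨(k * ((Gamma1 N : Subgroup SL(2, ℤ)) : Subgroup (GL (Fin 2) ℝ)).relIndex 𝒮ℒ).toNat / 12,
    fun h hinv hc hB ↦ ?_⟩
  set B := (k * ((Gamma1 N : Subgroup SL(2, ℤ)) : Subgroup (GL (Fin 2) ℝ)).relIndex 𝒮ℒ).toNat / 12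
  let f : ModularForm (Gamma1 N) k := ModularFormClass.modularForm (dshMkCusp (Gamma1 N) k h hc hinv)
  have h1 : (1 : ℝ) ∈ ((Gamma1 N : Subgroup SL(2, ℤ)) : Subgroup (GL (Fin 2) ℝ)).strictPeriods := by
    rw [CongruenceSubgroup.strictPeriods_Gamma1]
    exact AddSubgroup.mem_zmultiples 1
  have hf : f = 0 := by
    refine ModularForm.sturm_bound_of_isArithmetic h1 ?_
    have h2 : ((B + 1 : ℕ) : ℕ∞) ≤ (qExpansion 1 f).order :=
      PowerSeries.nat_le_order _ _ fun i hi ↦ hB i (Nat.lt_succ_iff.mp hi)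
    refine lt_of_lt_of_le ?_ h2
    exact_mod_cast Nat.lt_succ_self B
  have : (f : ℍ → ℂ) = h := rfl
  rw [← this, hf]
  rfl

/-- `U_p (h∣[p,0;0,1]) = p^(k-1) h` for 1-periodic `h`. -/
theorem dsh_heckeU_slash_diag {h : ℍ → ℂ} (hper : Function.Periodic (h ∘ ofComplex) 1) (k : ℤ)
    {p : ℕ} (hp : p ≠ 0) :
    heckeU k p (h ∣[k] heckeDiagMatrix p) = ((p : ℂ) ^ (k - 1)) • h := by
  have hp' : (p : ℂ) ≠ 0 := by exact_mod_cast hp
  funext τ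
  rw [heckeU_apply k hp, Pi.smul_apply, smul_eq_mul]
  have key : ∀ j : ℕ, (h ∣[k] heckeDiagMatrix p) (heckeMatrix p j • τ) = (p : ℂ) ^ (k - 1) * h τ := by
    intro j
    rw [slash_heckeDiagMatrix_apply k hp]
    congr 1
    have h1 : ((heckeDiagMatrix p • (heckeMatrix p j • τ) : ℍ) : ℂ) = (τ : ℂ) + (j : ℂ) * 1 := by
      rw [coe_heckeDiagMatrix_smul hp, coe_heckeMatrix_smul hp]
      field_simp
    have h2 := (hper.nat_mul j) (τ : ℂ)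
    simp only [Function.comp_apply] at h2
    rw [← h1, ofComplex_apply, ofComplex_apply] at h2
    exact h2
  simp only [key, Finset.sum_const, Finset.card_range, nsmul_eq_mul]
  field_simp

/-- Key step: if `g` and `g∣δ` are Γ₁(N)-invariant then so is `(g∣δ)∣δ` (δ = [p,0;0,1], p ∤ N). -/
theorem dsh_Vp_step {N p : ℕ} (hp : p.Prime) (hpN : ¬ p ∣ N) {k : ℤ} {g : ℍ → ℂ}
    (hg : DshInv k N g) (hgδ : DshInv k N (g ∣[k] heckeDiagMatrix p)) :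
    DshInv k N ((g ∣[k] heckeDiagMatrix p) ∣[k] heckeDiagMatrix p) := by
  obtain ⟨γ, hγ, hγd, hγc⟩ := dsh_exists_gamma N hp hpN
  obtain ⟨t, ht⟩ := hγc
  have he : γ 1 0 = p * ((N : ℤ) * t) := by rw [ht]; ring
  obtain ⟨γ', hγ'10, hγ'11, hmul⟩ :=
    dsh_heckeDiagMatrix_mul_of_eq' hp.ne_zero γ ((N : ℤ) * t) he
  have hγ'mem : γ' ∈ Gamma0 N := by
    rw [Gamma0_mem, hγ'10]
    simp
  have hγ'd : dshD N γ' = (p : ZMod N) := by
    rw [← hγd, dshD, dshD, hγ'11]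
  set δ : GL (Fin 2) ℝ := heckeDiagMatrix p with hδ
  set g' : ℍ → ℂ := g ∣[k] γ'⁻¹ with hg'def
  have hg' : DshInv k N g' := hg.slash ((Gamma0 N).inv_mem hγ'mem)
  have hmat : (mapGL ℝ γ'⁻¹ : GL (Fin 2) ℝ) * δ = δ * mapGL ℝ γ⁻¹ := by
    rw [map_inv, map_inv, inv_mul_eq_iff_eq_mul, ← mul_assoc, ← hmul, mul_assoc,
      mul_inv_cancel, mul_one]
  have key1 : g' ∣[k] δ = (g ∣[k] δ) ∣[k] γ⁻¹ := by
    have h1 : g' = g ∣[k] (mapGL ℝ γ'⁻¹ : GL (Fin 2) ℝ) := rfl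
    have h2 : (g ∣[k] δ) ∣[k] γ⁻¹ = (g ∣[k] δ) ∣[k] (mapGL ℝ γ⁻¹ : GL (Fin 2) ℝ) := rfl
    rw [h1, h2, ← SlashAction.slash_mul, ← SlashAction.slash_mul, hmat]
  have hinv1 : DshInv k N (g' ∣[k] δ) := by
    rw [key1]
    exact hgδ.slash ((Gamma0 N).inv_mem hγ)
  have hT : DshInv k N (dshTWith k p γ (g' ∣[k] δ)) := hinv1.dshTWith hp hpN hγ hγd
  have key2 : (g' ∣[k] δ) ∣[k] γ = g ∣[k] δ := by
    rw [key1, ← SlashAction.slash_mul, inv_mul_cancel, SlashAction.slash_one]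
  have key3 : heckeU k p (g' ∣[k] δ) = ((p : ℂ) ^ (k - 1)) • g' :=
    dsh_heckeU_slash_diag hg'.periodic k hp.ne_zero
  have : (g ∣[k] δ) ∣[k] δ = dshTWith k p γ (g' ∣[k] δ) - ((p : ℂ) ^ (k - 1)) • g' := by
    rw [dshTWith_def, key2, key3, add_sub_cancel_left]
  rw [this]
  exact hT.sub (hg'.smul _)

theorem dsh_Vp_iter {N p : ℕ} (hp : p.Prime) (hpN : ¬ p ∣ N) {k : ℤ} {g : ℍ → ℂ}
    (hg : DshInv k N g) (hgc : DshCusp k g) (hgδ : DshInv k N (g ∣[k] heckeDiagMatrix p)) (m : ℕ) :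
    ∃ g' : ℍ → ℂ, DshInv k N g' ∧ DshCusp k g' ∧ DshInv k N (g' ∣[k] heckeDiagMatrix p) ∧
      (∀ n < p ^ m, qCoeff g' n = 0) ∧ (g' = 0 → g = 0) := by
  induction m with
  | zero =>
    refine ⟨g, hg, hgc, hgδ, fun n hn ↦ ?_, id⟩
    obtain rfl : n = 0 := by simpa using hn
    exact (dshNice_of_inv_cusp hg hgc).qCoeff_zero_of_isZeroAtImInfty hgc.isZeroAtImInfty
  | succ m ih =>
    obtain ⟨g', h1, h2, h3, h4, h5⟩ := ih
    refine ⟨g' ∣[k] heckeDiagMatrix p, h3, h2.slash_heckeDiagMatrix p, dsh_Vp_step hp hpN h1 h3,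
      fun n hn ↦ ?_, fun h0 ↦ h5 ((SlashAction.slash_eq_zero_iff _ _ _).mp h0)⟩
    rw [(dshNice_of_inv_cusp h1 h2).qCoeff_slash_heckeDiagMatrix k hp.ne_zero]
    split_ifs with hpn
    · rw [h4 _ (Nat.div_lt_of_lt_mul (by rwa [pow_succ, mul_comm] at hn)), mul_zero]
    · rfl

/-- **LEMMA (V_p).** If `g ∈ S_k(Γ₁(N))`, `p ∤ N` is prime and `g∣[p,0;0,1]` (i.e. `τ ↦ p^(k-1) g(pτ)`)
is again Γ₁(N)-invariant, then `g = 0`. -/
theorem dsh_Vp_lemma {N p : ℕ} [NeZero N] (hp : p.Prime) (hpN : ¬ p ∣ N) {k : ℤ} {g : ℍ → ℂ}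
    (hg : DshInv k N g) (hgc : DshCusp k g) (hgδ : DshInv k N (g ∣[k] heckeDiagMatrix p)) :
    g = 0 := by
  obtain ⟨B, hB⟩ := dsh_sturm N k
  obtain ⟨g', h1, h2, -, h4, h5⟩ := dsh_Vp_iter hp hpN hg hgc hgδ (B + 1)
  refine h5 (hB g' h1 h2 fun n hn ↦ h4 n ?_)
  calc n < B + 1 := Nat.lt_succ_iff.mpr hn
    _ < p ^ (B + 1) := Nat.lt_pow_self hp.one_lt

end Fermat.Agent.DS
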