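/-
DS-H file 9: `S_k(Γ₁(N))` is finite-dimensional (from the Sturm bound).
-/
import Fermat.Agent.Lib.DS.Hecke.VpLemma

set_option autoImplicit false

noncomputable section

namespace Fermat.Agent.DS

open UpperHalfPlane OnePoint CongruenceSubgroup ModularForm Matrix.SpecialLinearGroup
open ModularFormClass
open scoped MatrixGroups ModularForm Manifold

theorem dshNice_of_cuspForm {N : ℕ} {k : ℤ} (f : CuspForm (Gamma1 N) k) [NeZero N] : DshNice ⇑f :=
  dshNice_of_inv_cusp (dshInv_of_slashInvariantFormClass f) (dshCusp_of_cuspFormClass f)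

/-- The first `B + 1` q-coefficients, as a linear map. -/
def dshCoeffMap (N : ℕ) [NeZero N] (k : ℤ) (B : ℕ) :
    CuspForm (Gamma1 N) k →ₗ[ℂ] (Fin (B + 1) → ℂ) where
  toFun f i := qCoeff f i
  map_add' f g := by
    funext i
    rw [FunLike.coe_add, (dshNice_of_cuspForm f).qCoeff_add (dshNice_of_cuspForm g)]
    rfl
  map_smul' c f := by
    funext i
    rw [FunLike.coe_smul, (dshNice_of_cuspForm f).qCoeff_smul]
    rfl

theorem dsh_exists_coeffMap_injective (N : ℕ) [NeZero N] (k : ℤ) :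
    ∃ B : ℕ, Function.Injective (dshCoeffMap N k B) := by
  obtain ⟨B, hB⟩ := dsh_sturm N k
  refine ⟨B, (injective_iff_map_eq_zero _).mpr fun f hf ↦ ?_⟩
  have h0 : (⇑f : ℍ → ℂ) = 0 :=
    hB ⇑f (dshInv_of_slashInvariantFormClass f) (dshCusp_of_cuspFormClass f) fun n hn ↦ by
      have := congrFun hf ⟨n, Nat.lt_succ_iff.mpr hn⟩
      exact this
  exact DFunLike.coe_injective h0

instance dsh_finiteDimensional (N : ℕ) [NeZero N] (k : ℤ) :
    FiniteDimensional ℂ (CuspForm (Gamma1 N) k) := by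
  obtain ⟨B, hB⟩ := dsh_exists_coeffMap_injective N k
  exact FiniteDimensional.of_injective (dshCoeffMap N k B) hB

end Fermat.Agent.DS
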