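/-
DS-H file 10: `U_p` (p ∣ N) on Γ₁(N)-invariant functions commutes with the slash action of Γ₀(N);
level raising `V_p`: if `h` is Γ₁(N)-invariant then `h∣[p,0;0,1]` is Γ₁(Np)-invariant; level inclusion.
-/
import Fermat.Agent.Lib.DS.Hecke.Operators

set_option autoImplicit false

noncomputable section

namespace Fermat.Agent.DS

open UpperHalfPlane OnePoint CongruenceSubgroup ModularForm Matrix.SpecialLinearGroup
open scoped MatrixGroups ModularForm Manifold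

section heckeU

variable {p : ℕ}

theorem dsh_unit_of_apply_one_zero_eq_zero (g : SL(2, ℤ)) (hc : ((g 1 0 : ℤ) : ZMod p) = 0) :
    ((g 0 0 : ℤ) : ZMod p) * ((g 1 1 : ℤ) : ZMod p) = 1 := by
  have := congrArg (Int.cast : ℤ → ZMod p) (dsh_det_eq g)
  push_cast at this
  linear_combination this + ((g 0 1 : ℤ) : ZMod p) * hc

/-- The affine permutation of `ℤ/p` induced by `g` with `p ∣ c`. -/
def dshAffinePerm (g : SL(2, ℤ)) (hc : ((g 1 0 : ℤ) : ZMod p) = 0) : Equiv.Perm (ZMod p) where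
  toFun j := ((g 1 1 : ℤ) : ZMod p) * (((g 0 1 : ℤ) : ZMod p) + ((g 1 1 : ℤ) : ZMod p) * j)
  invFun j := ((g 0 0 : ℤ) : ZMod p) * (((g 0 0 : ℤ) : ZMod p) * j - ((g 0 1 : ℤ) : ZMod p))
  left_inv j := by
    linear_combination (((g 0 0 : ℤ) : ZMod p) * ((g 0 1 : ℤ) : ZMod p)
      + j * (((g 0 0 : ℤ) : ZMod p) * ((g 1 1 : ℤ) : ZMod p) + 1)) *
        dsh_unit_of_apply_one_zero_eq_zero g hc
  right_inv j := by
    linear_combination (-(((g 1 1 : ℤ) : ZMod p) * ((g 0 1 : ℤ) : ZMod p))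
      + j * (((g 0 0 : ℤ) : ZMod p) * ((g 1 1 : ℤ) : ZMod p) + 1)) *
        dsh_unit_of_apply_one_zero_eq_zero g hc

theorem dshAffinePerm_apply (g : SL(2, ℤ)) (hc : ((g 1 0 : ℤ) : ZMod p) = 0) (j : ZMod p) :
    dshAffinePerm g hc j =
      ((g 1 1 : ℤ) : ZMod p) * (((g 0 1 : ℤ) : ZMod p) + ((g 1 1 : ℤ) : ZMod p) * j) := rfl

variable [NeZero p]

theorem dsh_heckeMatrix_mul_of_dvd (g : SL(2, ℤ)) (hc : (p : ℤ) ∣ g 1 0) (x : ZMod p) :
    ∃ g' : SL(2, ℤ), g' 1 0 = p * g 1 0 ∧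
      g' 1 1 = g 1 1 - g 1 0 *
        ((dshAffinePerm g ((ZMod.intCast_zmod_eq_zero_iff_dvd _ _).mpr hc) x).val : ℤ) ∧
      heckeMatrix p x.val * mapGL ℝ g =
        mapGL ℝ g' * heckeMatrix p
          (dshAffinePerm g ((ZMod.intCast_zmod_eq_zero_iff_dvd _ _).mpr hc) x).val := by
  have hc0 : ((g 1 0 : ℤ) : ZMod p) = 0 := (ZMod.intCast_zmod_eq_zero_iff_dvd _ _).mpr hc
  set x' := dshAffinePerm g hc0 x with hx'
  obtain ⟨e, he⟩ : (p : ℤ) ∣ g 0 1 + x.val * g 1 1 - x'.val * (g 0 0 + x.val * g 1 0) := by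
    rw [← ZMod.intCast_zmod_eq_zero_iff_dvd]
    push_cast
    rw [ZMod.natCast_zmod_val, ZMod.natCast_zmod_val, hx', dshAffinePerm_apply]
    linear_combination (-(((g 0 1 : ℤ) : ZMod p) + x * ((g 1 1 : ℤ) : ZMod p))) *
      dsh_unit_of_apply_one_zero_eq_zero g hc0
      - (((g 1 1 : ℤ) : ZMod p) * (((g 0 1 : ℤ) : ZMod p) + ((g 1 1 : ℤ) : ZMod p) * x) * x) * hc0
  exact dsh_heckeMatrix_mul_of_eq (NeZero.ne p) g x.val x'.val e (by linear_combination he)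

/-- `U_p` (p ∣ N) commutes with the slash action of `Γ₀(N)` on Γ₁(N)-invariant functions. -/
theorem dsh_heckeU_slash {N : ℕ} (hpN : p ∣ N) {k : ℤ} {h : ℍ → ℂ} (hh : DshInv k N h)
    {g : SL(2, ℤ)} (hg : g ∈ Gamma0 N) :
    (heckeU k p h) ∣[k] g = heckeU k p (h ∣[k] g) := by
  have hcN : (N : ℤ) ∣ g 1 0 :=
    (ZMod.intCast_zmod_eq_zero_iff_dvd _ _).mp (Gamma0_mem.mp hg)
  have hc : (p : ℤ) ∣ g 1 0 := (Int.natCast_dvd_natCast.mpr hpN).trans hcN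
  have h1 : (heckeU k p h) ∣[k] g = (heckeU k p h) ∣[k] (mapGL ℝ g : GL (Fin 2) ℝ) := rfl
  rw [h1, dsh_heckeU_eq_sum_zmod k h, dsh_heckeU_eq_sum_zmod k (h ∣[k] g), SlashAction.sum_slash]
  calc ∑ x : ZMod p, (h ∣[k] heckeMatrix p x.val) ∣[k] (mapGL ℝ g : GL (Fin 2) ℝ)
      = ∑ x : ZMod p, (h ∣[k] g) ∣[k] heckeMatrix p
          (dshAffinePerm g ((ZMod.intCast_zmod_eq_zero_iff_dvd _ _).mpr hc) x).val := by
        refine Finset.sum_congr rfl fun x _ ↦ ?_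
        obtain ⟨g', hg', hg'', hmul⟩ := dsh_heckeMatrix_mul_of_dvd g hc x
        have hg'N : g' ∈ Gamma0 N := by
          rw [Gamma0_mem, hg']
          push_cast
          rw [Gamma0_mem.mp hg, mul_zero]
        rw [← SlashAction.slash_mul, hmul, SlashAction.slash_mul]
        congr 1
        have h2 : h ∣[k] (mapGL ℝ g' : GL (Fin 2) ℝ) = h ∣[k] g' := rfl
        rw [h2]
        refine hh.slash_eq_of_D_eq hg'N hg ?_
        rw [dshD, dshD, hg'']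
        push_cast
        rw [Gamma0_mem.mp hg, zero_mul, sub_zero]
    _ = ∑ x : ZMod p, (h ∣[k] g) ∣[k] heckeMatrix p x.val :=
        Equiv.sum_comp (dshAffinePerm g _) (fun x ↦ (h ∣[k] g) ∣[k] heckeMatrix p x.val)

theorem DshInv.heckeU {N : ℕ} (hpN : p ∣ N) {k : ℤ} {h : ℍ → ℂ} (hh : DshInv k N h) :
    DshInv k N (ModularForm.heckeU k p h) := fun g hg ↦ by
  rw [dsh_heckeU_slash hpN hh (Gamma1_in_Gamma0 N hg), hh g hg]

end heckeU

section level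

/-- Level inclusion. -/
theorem DshInv.of_dvd {N M : ℕ} (hNM : N ∣ M) {k : ℤ} {h : ℍ → ℂ} (hh : DshInv k N h) :
    DshInv k M h := fun γ hγ ↦ by
  refine hh γ ?_
  rw [Gamma1_mem] at hγ ⊢
  obtain ⟨h1, h2, h3⟩ := hγ
  have cast : ∀ z : ℤ, ZMod.castHom hNM (ZMod N) (z : ZMod M) = (z : ZMod N) := fun z ↦
    map_intCast (ZMod.castHom hNM (ZMod N)) z
  refine ⟨?_, ?_, ?_⟩
  · rw [← cast, h1, map_one]
  · rw [← cast, h2, map_one]
  · rw [← cast, h3, map_zero]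

/-- Level raising: `V_p`. -/
theorem DshInv.slash_heckeDiagMatrix {N p : ℕ} (hp : p ≠ 0) {k : ℤ} {h : ℍ → ℂ}
    (hh : DshInv k N h) : DshInv k (N * p) (h ∣[k] heckeDiagMatrix p) := fun g hg ↦ by
  rw [Gamma1_mem] at hg
  obtain ⟨h1, h2, h3⟩ := hg
  obtain ⟨e, he⟩ : ((N * p : ℕ) : ℤ) ∣ g 1 0 := (ZMod.intCast_zmod_eq_zero_iff_dvd _ _).mp h3
  have he' : g 1 0 = p * ((N : ℤ) * e) := by rw [he]; push_cast; ring
  obtain ⟨g', hg'10, hg'11, hmul⟩ := dsh_heckeDiagMatrix_mul_of_eq' hp g ((N : ℤ) * e) he'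
  have cast : ∀ z : ℤ, ZMod.castHom (dvd_mul_right N p) (ZMod N) (z : ZMod (N * p)) = (z : ZMod N) :=
    fun z ↦ map_intCast (ZMod.castHom (dvd_mul_right N p) (ZMod N)) z
  have hg' : g' ∈ Gamma1 N := by
    rw [dsh_mem_Gamma1_iff, Gamma0_mem, hg'10, dshD, hg'11]
    refine ⟨by simp, ?_⟩
    rw [← cast, h2, map_one]
  have h4 : (h ∣[k] heckeDiagMatrix p) ∣[k] g
      = (h ∣[k] heckeDiagMatrix p) ∣[k] (mapGL ℝ g : GL (Fin 2) ℝ) := rfl
  rw [h4, ← SlashAction.slash_mul, hmul, SlashAction.slash_mul]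
  congr 1
  exact hh g' hg'

end level

end Fermat.Agent.DS
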