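/-
DS-H file 11: the bundled operators on `S_k(Γ₁(N))`: diamond operators `⟨d⟩` (d ∈ (ℤ/N)ˣ),
`T_p` (p ∤ N prime), `U_p` (p ∣ N), level inclusion and `V_p`, with coefficient formulas.
-/
import Fermat.Agent.Lib.DS.Hecke.UOp
import Fermat.Agent.Lib.DS.Hecke.FinDim

set_option autoImplicit false

noncomputable section

namespace Fermat.Agent.DS

open UpperHalfPlane OnePoint CongruenceSubgroup ModularForm Matrix.SpecialLinearGroup
open ModularFormClass
open scoped MatrixGroups ModularForm Manifold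

/-- For every unit `d` mod `N` there is `γ ∈ Γ₀(N)` with lower-right entry `≡ d`. -/
theorem dsh_exists_gammaU (N : ℕ) [NeZero N] (d : (ZMod N)ˣ) :
    ∃ γ : SL(2, ℤ), γ ∈ Gamma0 N ∧ dshD N γ = (d : ZMod N) := by
  have hcop : IsCoprime (((d : ZMod N).val : ℕ) : ℤ) (N : ℤ) :=
    Nat.isCoprime_iff_coprime.mpr (ZMod.val_coe_unit_coprime d)
  obtain ⟨a, b, hab⟩ := hcop
  refine ⟨dshMkSL a (-b) (N : ℤ) (((d : ZMod N).val : ℕ) : ℤ) (by linear_combination hab), ?_, ?_⟩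
  · rw [Gamma0_mem]
    simp
  · simp [dshD]

/-- A chosen `γ_d ∈ Γ₀(N)` with lower-right entry `≡ d`. -/
def dshGammaU (N : ℕ) [NeZero N] (d : (ZMod N)ˣ) : SL(2, ℤ) :=
  Classical.choose (dsh_exists_gammaU N d)

theorem dshGammaU_mem (N : ℕ) [NeZero N] (d : (ZMod N)ˣ) : dshGammaU N d ∈ Gamma0 N :=
  (Classical.choose_spec (dsh_exists_gammaU N d)).1

@[simp] theorem dshD_dshGammaU (N : ℕ) [NeZero N] (d : (ZMod N)ˣ) :
    dshD N (dshGammaU N d) = (d : ZMod N) :=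
  (Classical.choose_spec (dsh_exists_gammaU N d)).2

variable {N : ℕ} [NeZero N] {k : ℤ}

omit [NeZero N] in
theorem dshInv_coe (f : CuspForm (Gamma1 N) k) : DshInv k N ⇑f :=
  dshInv_of_slashInvariantFormClass f

theorem dshCusp_coe (f : CuspForm (Gamma1 N) k) : DshCusp k ⇑f :=
  dshCusp_of_cuspFormClass f

/-- The diamond operator `⟨d⟩` on `S_k(Γ₁(N))`. -/
def dshDiamond (k : ℤ) (N : ℕ) [NeZero N] (d : (ZMod N)ˣ) :
    CuspForm (Gamma1 N) k →ₗ[ℂ] CuspForm (Gamma1 N) k where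
  toFun f := dshMkCusp (Gamma1 N) k ((⇑f) ∣[k] dshGammaU N d) ((dshCusp_coe f).slash_SL _)
    ((dshInv_coe f).slash (dshGammaU_mem N d))
  map_add' f g := DFunLike.coe_injective <| by
    change (⇑(f + g)) ∣[k] dshGammaU N d = (⇑f) ∣[k] dshGammaU N d + (⇑g) ∣[k] dshGammaU N d
    rw [FunLike.coe_add, SlashAction.add_slash]
  map_smul' c f := DFunLike.coe_injective <| by
    change (⇑(c • f)) ∣[k] dshGammaU N d = c • ((⇑f) ∣[k] dshGammaU N d)
    rw [FunLike.coe_smul, ModularForm.SL_smul_slash]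

theorem coe_dshDiamond (d : (ZMod N)ˣ) (f : CuspForm (Gamma1 N) k) :
    ⇑(dshDiamond k N d f) = (⇑f) ∣[k] dshGammaU N d := rfl

/-- `⟨d⟩ f = f∣γ` for any `γ ∈ Γ₀(N)` with lower-right entry `≡ d`. -/
theorem coe_dshDiamond_eq (d : (ZMod N)ˣ) (f : CuspForm (Gamma1 N) k) {γ : SL(2, ℤ)}
    (hγ : γ ∈ Gamma0 N) (hd : dshD N γ = (d : ZMod N)) :
    ⇑(dshDiamond k N d f) = (⇑f) ∣[k] γ := by
  rw [coe_dshDiamond]
  exact (dshInv_coe f).slash_eq_of_D_eq (dshGammaU_mem N d) hγ (by rw [dshD_dshGammaU, hd])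

@[simp] theorem dshDiamond_one : dshDiamond k N 1 = LinearMap.id := by
  refine LinearMap.ext fun f ↦ DFunLike.coe_injective ?_
  rw [coe_dshDiamond_eq 1 f (Gamma0 N).one_mem (by simp)]
  exact SlashAction.slash_one _ _

theorem dshDiamond_mul (d d' : (ZMod N)ˣ) :
    dshDiamond k N (d * d') = dshDiamond k N d ∘ₗ dshDiamond k N d' := by
  refine LinearMap.ext fun f ↦ DFunLike.coe_injective ?_
  rw [LinearMap.comp_apply, coe_dshDiamond (d := d), coe_dshDiamond (d := d'),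
    ← SlashAction.slash_mul]
  refine coe_dshDiamond_eq (d * d') f
    ((Gamma0 N).mul_mem (dshGammaU_mem N d') (dshGammaU_mem N d)) ?_
  rw [dshD_mul (dshGammaU_mem N d'), dshD_dshGammaU, dshD_dshGammaU, Units.val_mul, mul_comm]

theorem dshDiamond_comm (d d' : (ZMod N)ˣ) :
    dshDiamond k N d ∘ₗ dshDiamond k N d' = dshDiamond k N d' ∘ₗ dshDiamond k N d := by
  rw [← dshDiamond_mul, ← dshDiamond_mul, mul_comm]

/-- The diamond operators as a monoid homomorphism. -/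
def dshDiamondHom (k : ℤ) (N : ℕ) [NeZero N] :
    (ZMod N)ˣ →* Module.End ℂ (CuspForm (Gamma1 N) k) where
  toFun := dshDiamond k N
  map_one' := dshDiamond_one
  map_mul' d d' := dshDiamond_mul d d'

@[simp] theorem dshDiamondHom_apply (d : (ZMod N)ˣ) : dshDiamondHom k N d = dshDiamond k N d := rfl

/-- The unit `p mod N` for a prime `p ∤ N`. -/
def dshUnit (N : ℕ) {p : ℕ} (hp : p.Prime) (hpN : ¬ p ∣ N) : (ZMod N)ˣ :=
  ZMod.unitOfCoprime p ((Nat.Prime.coprime_iff_not_dvd hp).mpr hpN)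

@[simp] theorem coe_dshUnit (N : ℕ) {p : ℕ} (hp : p.Prime) (hpN : ¬ p ∣ N) :
    ((dshUnit N hp hpN : (ZMod N)ˣ) : ZMod N) = (p : ZMod N) :=
  ZMod.coe_unitOfCoprime p _

/-- The Hecke operator `T_p` (p ∤ N prime) on `S_k(Γ₁(N))`. -/
def dshTLin (k : ℤ) {N p : ℕ} [NeZero N] (hp : p.Prime) (hpN : ¬ p ∣ N) :
    CuspForm (Gamma1 N) k →ₗ[ℂ] CuspForm (Gamma1 N) k where
  toFun f := dshMkCusp (Gamma1 N) k (dshTWith k p (dshGammaU N (dshUnit N hp hpN)) ⇑f)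
    ((dshCusp_coe f).dshTWith p _)
    ((dshInv_coe f).dshTWith hp hpN (dshGammaU_mem N _) (by simp))
  map_add' f g := DFunLike.coe_injective <| by
    change dshTWith k p _ ⇑(f + g) = dshTWith k p _ ⇑f + dshTWith k p _ ⇑g
    rw [FunLike.coe_add, dshTWith_add]
  map_smul' c f := DFunLike.coe_injective <| by
    change dshTWith k p _ ⇑(c • f) = c • dshTWith k p _ ⇑f
    rw [FunLike.coe_smul, dshTWith_smul]

variable {p : ℕ}

theorem coe_dshTLin (hp : p.Prime) (hpN : ¬ p ∣ N) (f : CuspForm (Gamma1 N) k) :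
    ⇑(dshTLin k hp hpN f) = dshTWith k p (dshGammaU N (dshUnit N hp hpN)) ⇑f := rfl

theorem coe_dshTLin_eq (hp : p.Prime) (hpN : ¬ p ∣ N) (f : CuspForm (Gamma1 N) k)
    {γ : SL(2, ℤ)} (hγ : γ ∈ Gamma0 N) (hd : dshD N γ = (p : ZMod N)) :
    ⇑(dshTLin k hp hpN f) = dshTWith k p γ ⇑f := by
  rw [coe_dshTLin]
  exact dshTWith_congr (dshGammaU_mem N _) hγ (by rw [dshD_dshGammaU, coe_dshUnit, hd])
    (dshInv_coe f)

/-- `T_p f = U_p f + V_p ⟨p⟩ f`. -/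
theorem coe_dshTLin_eq_add (hp : p.Prime) (hpN : ¬ p ∣ N) (f : CuspForm (Gamma1 N) k) :
    ⇑(dshTLin k hp hpN f) = heckeU k p ⇑f +
      (⇑(dshDiamond k N (dshUnit N hp hpN) f)) ∣[k] heckeDiagMatrix p := rfl

/-- `a_n(T_p f) = a_{np}(f) + [p ∣ n] p^(k-1) a_{n/p}(⟨p⟩ f)`. -/
theorem qCoeff_dshTLin (hp : p.Prime) (hpN : ¬ p ∣ N) (f : CuspForm (Gamma1 N) k) (n : ℕ) :
    qCoeff (dshTLin k hp hpN f) n = qCoeff f (n * p) +
      if p ∣ n then (p : ℂ) ^ (k - 1) * qCoeff (dshDiamond k N (dshUnit N hp hpN) f) (n / p)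
      else 0 := by
  have hfn := dshNice_of_cuspForm f
  have hdn := dshNice_of_cuspForm (dshDiamond k N (dshUnit N hp hpN) f)
  rw [coe_dshTLin_eq_add, (hfn.heckeU k p).qCoeff_add (hdn.slash_heckeDiagMatrix k p),
    hfn.qCoeff_heckeU k hp.ne_zero, hdn.qCoeff_slash_heckeDiagMatrix k hp.ne_zero]

/-- `T_p` commutes with the diamond operators. -/
theorem dshTLin_comm_dshDiamond (hp : p.Prime) (hpN : ¬ p ∣ N) (d : (ZMod N)ˣ) :
    dshTLin k hp hpN ∘ₗ dshDiamond k N d = dshDiamond k N d ∘ₗ dshTLin k hp hpN := by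
  refine LinearMap.ext fun f ↦ DFunLike.coe_injective ?_
  have : Fact p.Prime := ⟨hp⟩
  rw [LinearMap.comp_apply, LinearMap.comp_apply, coe_dshTLin, coe_dshDiamond, coe_dshDiamond,
    coe_dshTLin]
  exact (dshTWith_slash hpN (dshGammaU_mem N _) (by simp) (dshInv_coe f) (dshGammaU_mem N d)).symm

/-- The operator `U_p` (p ∣ N) on `S_k(Γ₁(N))`. -/
def dshULin (k : ℤ) {N p : ℕ} [NeZero N] (hpN : p ∣ N) :
    CuspForm (Gamma1 N) k →ₗ[ℂ] CuspForm (Gamma1 N) k :=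
  haveI : NeZero p := ⟨fun h ↦ NeZero.ne N (by rw [h] at hpN; exact zero_dvd_iff.mp hpN)⟩
  { toFun := fun f ↦ dshMkCusp (Gamma1 N) k (heckeU k p ⇑f) ((dshCusp_coe f).heckeU p)
      ((dshInv_coe f).heckeU hpN)
    map_add' := fun f g ↦ DFunLike.coe_injective <| by
      change heckeU k p ⇑(f + g) = heckeU k p ⇑f + heckeU k p ⇑g
      rw [FunLike.coe_add, heckeU_add]
    map_smul' := fun c f ↦ DFunLike.coe_injective <| by
      change heckeU k p ⇑(c • f) = c • heckeU k p ⇑f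
      rw [FunLike.coe_smul, heckeU_smul] }

theorem coe_dshULin (hpN : p ∣ N) (f : CuspForm (Gamma1 N) k) :
    ⇑(dshULin k hpN f) = heckeU k p ⇑f := rfl

theorem qCoeff_dshULin (hpN : p ∣ N) (f : CuspForm (Gamma1 N) k) (n : ℕ) :
    qCoeff (dshULin k hpN f) n = qCoeff f (n * p) := by
  have hp0 : p ≠ 0 := fun h ↦ NeZero.ne N (by rw [h] at hpN; exact zero_dvd_iff.mp hpN)
  rw [coe_dshULin, (dshNice_of_cuspForm f).qCoeff_heckeU k hp0]

theorem dshULin_comm_dshDiamond (hpN : p ∣ N) (d : (ZMod N)ˣ) :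
    dshULin k hpN ∘ₗ dshDiamond k N d = dshDiamond k N d ∘ₗ dshULin k hpN := by
  refine LinearMap.ext fun f ↦ DFunLike.coe_injective ?_
  have : NeZero p := ⟨fun h ↦ NeZero.ne N (by rw [h] at hpN; exact zero_dvd_iff.mp hpN)⟩
  rw [LinearMap.comp_apply, LinearMap.comp_apply, coe_dshULin, coe_dshDiamond, coe_dshDiamond,
    coe_dshULin]
  exact (dsh_heckeU_slash hpN (dshInv_coe f) (dshGammaU_mem N d)).symm

end Fermat.Agent.DS
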