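/-
DS-H file 12: commutativity of the Hecke operators on `S_k(Γ₁(N))` (by comparison of q-expansions).
-/
import Fermat.Agent.Lib.DS.Hecke.Forms

set_option autoImplicit false

noncomputable section

namespace Fermat.Agent.DS

open UpperHalfPlane OnePoint CongruenceSubgroup ModularForm Matrix.SpecialLinearGroup
open ModularFormClass
open scoped MatrixGroups ModularForm Manifold

variable {N : ℕ} [NeZero N] {k : ℤ}

/-- Identity principle for cusp forms on `Γ₁(N)`. -/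
theorem dsh_cuspForm_ext_qCoeff {f g : CuspForm (Gamma1 N) k}
    (h : ∀ n, qCoeff f n = qCoeff g n) : f = g :=
  DFunLike.coe_injective ((dshNice_of_cuspForm f).ext_qCoeff (dshNice_of_cuspForm g) h)

section arith

variable {p q : ℕ}

theorem dsh_dvd_mul_iff (hp : p.Prime) (hq : q.Prime) (hpq : p ≠ q) (n : ℕ) :
    q ∣ n * p ↔ q ∣ n := by
  rw [hq.dvd_mul]
  constructor
  · rintro (h | h)
    · exact h
    · exact absurd ((Nat.prime_dvd_prime_iff_eq hq hp).mp h).symm hpq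
  · exact Or.inl

theorem dsh_dvd_div_iff (hp : p.Prime) (hq : q.Prime) (hpq : p ≠ q) {n : ℕ} (hn : p ∣ n) :
    q ∣ n / p ↔ q ∣ n := by
  obtain ⟨m, rfl⟩ := hn
  rw [Nat.mul_div_cancel_left _ hp.pos, mul_comm, dsh_dvd_mul_iff hp hq hpq]

/-- The symmetric double-Hecke coefficient formula. -/
theorem dsh_coeff_comm (hp : p.Prime) (hq : q.Prime) (hpq : p ≠ q) (x y : ℂ) (a b c d : ℕ → ℂ)
    (n : ℕ) :
    (a (n * p * q) + if q ∣ n * p then y * c (n * p / q) else 0) +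
      (if p ∣ n then x * (b (n / p * q) + if q ∣ n / p then y * d (n / p / q) else 0) else 0) =
    (a (n * q * p) + if p ∣ n * q then x * b (n * q / p) else 0) +
      (if q ∣ n then y * (c (n / q * p) + if p ∣ n / q then x * d (n / q / p) else 0) else 0) := by
  rw [mul_right_comm n p q]
  by_cases h1 : p ∣ n <;> by_cases h2 : q ∣ n
  · rw [if_pos h1, if_pos h2, if_pos ((dsh_dvd_mul_iff hp hq hpq n).mpr h2),
      if_pos ((dsh_dvd_mul_iff hq hp hpq.symm n).mpr h1),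
      if_pos ((dsh_dvd_div_iff hp hq hpq h1).mpr h2),
      if_pos ((dsh_dvd_div_iff hq hp hpq.symm h2).mpr h1), Nat.div_mul_right_comm h2,
      Nat.div_mul_right_comm h1, Nat.div_div_eq_div_mul, Nat.div_div_eq_div_mul, mul_comm q p]
    ring
  · rw [if_pos h1, if_neg h2, if_neg (fun h ↦ h2 ((dsh_dvd_mul_iff hp hq hpq n).mp h)),
      if_pos ((dsh_dvd_mul_iff hq hp hpq.symm n).mpr h1),
      if_neg (fun h ↦ h2 ((dsh_dvd_div_iff hp hq hpq h1).mp h)), Nat.div_mul_right_comm h1]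
    ring
  · rw [if_neg h1, if_pos h2, if_pos ((dsh_dvd_mul_iff hp hq hpq n).mpr h2),
      if_neg (fun h ↦ h1 ((dsh_dvd_mul_iff hq hp hpq.symm n).mp h)),
      if_neg (fun h ↦ h1 ((dsh_dvd_div_iff hq hp hpq.symm h2).mp h)), Nat.div_mul_right_comm h2]
    ring
  · rw [if_neg h1, if_neg h2, if_neg (fun h ↦ h2 ((dsh_dvd_mul_iff hp hq hpq n).mp h)),
      if_neg (fun h ↦ h1 ((dsh_dvd_mul_iff hq hp hpq.symm n).mp h))]

end arith

variable {p q : ℕ}

/-- `T_p T_q = T_q T_p`. -/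
theorem dshTLin_comm (hp : p.Prime) (hpN : ¬ p ∣ N) (hq : q.Prime) (hqN : ¬ q ∣ N) :
    dshTLin k hp hpN ∘ₗ dshTLin k hq hqN = dshTLin k hq hqN ∘ₗ dshTLin k hp hpN := by
  rcases eq_or_ne p q with rfl | hpq
  · rfl
  apply LinearMap.ext
  intro f
  rw [LinearMap.comp_apply, LinearMap.comp_apply]
  apply dsh_cuspForm_ext_qCoeff
  intro n
  have e1 := LinearMap.congr_fun (dshTLin_comm_dshDiamond (k := k) hq hqN (dshUnit N hp hpN)) f
  have e2 := LinearMap.congr_fun (dshTLin_comm_dshDiamond (k := k) hp hpN (dshUnit N hq hqN)) f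
  have e3 := LinearMap.congr_fun
    (dshDiamond_comm (k := k) (dshUnit N hq hqN) (dshUnit N hp hpN)) f
  rw [LinearMap.comp_apply, LinearMap.comp_apply] at e1 e2 e3
  rw [qCoeff_dshTLin hp hpN (dshTLin k hq hqN f) n, qCoeff_dshTLin hq hqN (dshTLin k hp hpN f) n,
    ← e1, ← e2, qCoeff_dshTLin hq hqN f, qCoeff_dshTLin hp hpN f,
    qCoeff_dshTLin hq hqN (dshDiamond k N (dshUnit N hp hpN) f),
    qCoeff_dshTLin hp hpN (dshDiamond k N (dshUnit N hq hqN) f), e3]
  exact dsh_coeff_comm hp hq hpq _ _ _ _ _ _ n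

/-- `T_p U_q = U_q T_p`. -/
theorem dshTLin_comm_dshULin (hp : p.Prime) (hpN : ¬ p ∣ N) (hqN : q ∣ N) :
    dshTLin k hp hpN ∘ₗ dshULin k hqN = dshULin k hqN ∘ₗ dshTLin k hp hpN := by
  have hpq : ¬ p ∣ q := fun h ↦ hpN (h.trans hqN)
  apply LinearMap.ext
  intro f
  rw [LinearMap.comp_apply, LinearMap.comp_apply]
  apply dsh_cuspForm_ext_qCoeff
  intro n
  have e1 := LinearMap.congr_fun (dshULin_comm_dshDiamond (k := k) hqN (dshUnit N hp hpN)) f
  rw [LinearMap.comp_apply, LinearMap.comp_apply] at e1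
  rw [qCoeff_dshTLin hp hpN (dshULin k hqN f) n, qCoeff_dshULin hqN (dshTLin k hp hpN f) n,
    ← e1, qCoeff_dshULin hqN f, qCoeff_dshTLin hp hpN f,
    qCoeff_dshULin hqN (dshDiamond k N (dshUnit N hp hpN) f), mul_right_comm n q p]
  congr 1
  have hiff : p ∣ n * q ↔ p ∣ n := (Nat.Prime.dvd_mul hp).trans (or_iff_left hpq)
  by_cases h1 : p ∣ n
  · rw [if_pos h1, if_pos (hiff.mpr h1), Nat.div_mul_right_comm h1]
  · rw [if_neg h1, if_neg (fun h ↦ h1 (hiff.mp h))]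

/-- `U_p U_q = U_q U_p`. -/
theorem dshULin_comm (hpN : p ∣ N) (hqN : q ∣ N) :
    dshULin k hpN ∘ₗ dshULin k hqN = dshULin k hqN ∘ₗ dshULin k hpN := by
  apply LinearMap.ext
  intro f
  rw [LinearMap.comp_apply, LinearMap.comp_apply]
  apply dsh_cuspForm_ext_qCoeff
  intro n
  rw [qCoeff_dshULin, qCoeff_dshULin, qCoeff_dshULin, qCoeff_dshULin, mul_right_comm]

end Fermat.Agent.DS
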