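/-
DS-H file 13: change of level on `S_k(Γ₁(N))`: the inclusion `S_k(Γ₁(N)) ⊂ S_k(Γ₁(M))` (N ∣ M) and
`V_p : S_k(Γ₁(N)) → S_k(Γ₁(Np))`, `f ↦ f∣[p,0;0,1] = p^(k-1) f(pτ)`, with coefficient formulas.
-/
import Fermat.Agent.Lib.DS.Hecke.Comm

set_option autoImplicit false

noncomputable section

namespace Fermat.Agent.DS

open UpperHalfPlane OnePoint CongruenceSubgroup ModularForm Matrix.SpecialLinearGroup
open ModularFormClass
open scoped MatrixGroups ModularForm Manifold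

/-- Level inclusion `S_k(Γ₁(N)) → S_k(Γ₁(M))` for `N ∣ M`. -/
def dshLevelIncl (k : ℤ) {N M : ℕ} [NeZero N] [NeZero M] (hNM : N ∣ M) :
    CuspForm (Gamma1 N) k →ₗ[ℂ] CuspForm (Gamma1 M) k where
  toFun f := dshMkCusp (Gamma1 M) k ⇑f (dshCusp_coe f) ((dshInv_coe f).of_dvd hNM)
  map_add' _ _ := rfl
  map_smul' _ _ := rfl

@[simp] theorem coe_dshLevelIncl (k : ℤ) {N M : ℕ} [NeZero N] [NeZero M] (hNM : N ∣ M)
    (f : CuspForm (Gamma1 N) k) : ⇑(dshLevelIncl k hNM f) = ⇑f := rfl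

theorem dshLevelIncl_injective (k : ℤ) {N M : ℕ} [NeZero N] [NeZero M] (hNM : N ∣ M) :
    Function.Injective (dshLevelIncl k hNM) := fun f g h ↦
  DFunLike.coe_injective (by
    have := congrArg (fun x : CuspForm (Gamma1 M) k ↦ (⇑x : ℍ → ℂ)) h
    simpa using this)

/-- `V_p : S_k(Γ₁(N)) → S_k(Γ₁(Np))`. -/
def dshVLin (k : ℤ) (N p : ℕ) [NeZero N] [NeZero p] :
    CuspForm (Gamma1 N) k →ₗ[ℂ] CuspForm (Gamma1 (N * p)) k where
  toFun f := dshMkCusp (Gamma1 (N * p)) k ((⇑f) ∣[k] heckeDiagMatrix p)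
    ((dshCusp_coe f).slash_heckeDiagMatrix p)
    ((dshInv_coe f).slash_heckeDiagMatrix (NeZero.ne p))
  map_add' f g := DFunLike.coe_injective <| by
    change (⇑(f + g)) ∣[k] heckeDiagMatrix p = (⇑f) ∣[k] heckeDiagMatrix p + (⇑g) ∣[k] heckeDiagMatrix p
    rw [FunLike.coe_add, SlashAction.add_slash]
  map_smul' c f := DFunLike.coe_injective <| by
    change (⇑(c • f)) ∣[k] heckeDiagMatrix p = c • ((⇑f) ∣[k] heckeDiagMatrix p)
    rw [FunLike.coe_smul, ModularForm.smul_slash, σ_heckeDiagMatrix, ContinuousAlgEquiv.refl_apply]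

@[simp] theorem coe_dshVLin (k : ℤ) (N p : ℕ) [NeZero N] [NeZero p] (f : CuspForm (Gamma1 N) k) :
    ⇑(dshVLin k N p f) = (⇑f) ∣[k] heckeDiagMatrix p := rfl

theorem qCoeff_dshVLin (k : ℤ) (N p : ℕ) [NeZero N] [NeZero p] (f : CuspForm (Gamma1 N) k)
    (n : ℕ) :
    qCoeff (dshVLin k N p f) n = if p ∣ n then (p : ℂ) ^ (k - 1) * qCoeff f (n / p) else 0 := by
  rw [coe_dshVLin, (dshNice_of_cuspForm f).qCoeff_slash_heckeDiagMatrix k (NeZero.ne p)]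

end Fermat.Agent.DS
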