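/-
DS-H file 8: arithmetic consequences of the Hecke relations
`a_{pn} + ε(p)[p∣n] a_{n/p} = a_p a_n` (p ∤ N prime), `a_1 = 1`:
the prime-power recursion and multiplicativity on integers prime to `N`.
-/
import Mathlib

set_option autoImplicit false

namespace Fermat.Agent.DS

section onePrime

variable {a : ℕ → ℂ} {e : ℂ} {p : ℕ}

theorem dsh_coeff_prime_pow (hp : p.Prime)
    (hT : ∀ n : ℕ, a (p * n) + e * (if p ∣ n then a (n / p) else 0) = a p * a n) (r : ℕ) :
    a (p ^ (r + 2)) = a p * a (p ^ (r + 1)) - e * a (p ^ r) := by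
  have h := hT (p ^ (r + 1))
  rw [if_pos (dvd_pow_self p (Nat.succ_ne_zero r)), pow_succ p r,
    Nat.mul_div_cancel _ hp.pos, ← pow_succ, ← pow_succ'] at h
  linear_combination h

theorem dsh_coeff_prime_pow_mul (hp : p.Prime)
    (hT : ∀ n : ℕ, a (p * n) + e * (if p ∣ n then a (n / p) else 0) = a p * a n)
    (h1 : a 1 = 1) {n : ℕ} (hn : ¬ p ∣ n) (r : ℕ) :
    a (p ^ r * n) = a (p ^ r) * a n := by
  induction r using Nat.strong_induction_on with
  | _ r ih =>
    rcases r with _ | _ | r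
    · simp [h1]
    · have h := hT n
      rw [if_neg hn, mul_zero, add_zero] at h
      simpa using h
    · have h := hT (p ^ (r + 1) * n)
      have hdvd : p ∣ p ^ (r + 1) * n := Dvd.dvd.mul_right (dvd_pow_self p (Nat.succ_ne_zero r)) n
      have hdiv : p ^ (r + 1) * n / p = p ^ r * n := by
        rw [pow_succ', mul_assoc, Nat.mul_div_cancel_left _ hp.pos]
      rw [if_pos hdvd, hdiv, ← mul_assoc, ← pow_succ', ih (r + 1) (by omega), ih r (by omega)] at h
      rw [dsh_coeff_prime_pow hp hT r]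
      linear_combination h

end onePrime

/-- Multiplicativity on integers prime to `N`. -/
theorem dsh_coeff_mul_of_coprime {a : ℕ → ℂ} {ε : ℕ → ℂ} {N : ℕ} (h1 : a 1 = 1)
    (hT : ∀ p : ℕ, p.Prime → ¬ p ∣ N → ∀ n : ℕ,
      a (p * n) + ε p * (if p ∣ n then a (n / p) else 0) = a p * a n) :
    ∀ m : ℕ, m.Coprime N → ∀ n : ℕ, m.Coprime n → a (m * n) = a m * a n := by
  intro m
  induction m using Nat.recOnPosPrimePosCoprime with
  | prime_pow p r hp hr =>
    intro hN n hn
    have hdvd : p ∣ p ^ r := dvd_pow_self p hr.ne'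
    have hpN : ¬ p ∣ N := (Nat.Prime.coprime_iff_not_dvd hp).mp (Nat.Coprime.coprime_dvd_left hdvd hN)
    have hpn : ¬ p ∣ n := (Nat.Prime.coprime_iff_not_dvd hp).mp (Nat.Coprime.coprime_dvd_left hdvd hn)
    exact dsh_coeff_prime_pow_mul hp (hT p hp hpN) h1 hpn r
  | zero =>
    intro _ n hn
    obtain rfl : n = 1 := by simpa using hn
    simp [h1]
  | one =>
    intro _ n _
    simp [h1]
  | coprime x y hx hy hxy ihx ihy =>
    intro hN n hn
    have hxN : x.Coprime N := Nat.Coprime.coprime_dvd_left (dvd_mul_right x y) hN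
    have hyN : y.Coprime N := Nat.Coprime.coprime_dvd_left (dvd_mul_left y x) hN
    have hxn : x.Coprime n := Nat.Coprime.coprime_dvd_left (dvd_mul_right x y) hn
    have hyn : y.Coprime n := Nat.Coprime.coprime_dvd_left (dvd_mul_left y x) hn
    rw [mul_assoc, ihx hxN (y * n) (Nat.Coprime.mul_right hxy hxn), ihy hyN n hyn,
      ihx hxN y hxy, mul_assoc]

end Fermat.Agent.DS
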