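/-
DS-H file 7: (DS-0).  Under the hypotheses of S48 (`f ∈ S₁(Γ₁(N))`, and for all primes `p ∤ N`:
`a_{pn} + ε(p)[p∣n] a_{n/p} = a_p a_n`), `f` has nebentypus `ε`:  `f∣γ = ε(d_γ) f` for `γ ∈ Γ₀(N)`,
and `f` is an eigenvector of every `T_p`, `p ∤ N`:  `∑_j f∣[1,j;0,p] + ε(p) f∣[p,0;0,1] = a_p f`.
-/
import Fermat.Agent.Lib.DS.Hecke.VpLemma

set_option autoImplicit false

noncomputable section

namespace Fermat.Agent.DS

open UpperHalfPlane OnePoint CongruenceSubgroup ModularForm Matrix.SpecialLinearGroup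
open ModularFormClass
open scoped MatrixGroups ModularForm Manifold

section

variable {N : ℕ} [NeZero N] (ε : DirichletCharacter ℂ N) (f : CuspForm (Gamma1 N) 1)
  (hT : ∀ p : ℕ, p.Prime → ¬ p ∣ N → ∀ n : ℕ,
    qCoeff f (p * n) + ε (p : ZMod N) * (if p ∣ n then qCoeff f (n / p) else 0) =
      qCoeff f p * qCoeff f n)

include hT

/-- The key identity `T_p f - a_p f = (⟨p⟩f - ε(p) f)∣[p,0;0,1]` and its consequence via LEMMA (V_p):
`⟨p⟩ f = ε(p) f` for every prime `p ∤ N`. -/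
theorem dsh_diamond_prime {p : ℕ} (hp : p.Prime) (hpN : ¬ p ∣ N) {γ : SL(2, ℤ)}
    (hγ : γ ∈ Gamma0 N) (hγd : dshD N γ = (p : ZMod N)) :
    (⇑f) ∣[(1 : ℤ)] γ = ε (p : ZMod N) • ⇑f := by
  have hf : DshInv 1 N ⇑f := dshInv_of_slashInvariantFormClass f
  have hfc : DshCusp 1 ⇑f := dshCusp_of_cuspFormClass f
  have hfn : DshNice ⇑f := dshNice_of_inv_cusp hf hfc
  set f' : ℍ → ℂ := (⇑f) ∣[(1 : ℤ)] γ with hf'def
  have hf' : DshInv 1 N f' := hf.slash hγ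
  have hf'c : DshCusp 1 f' := hfc.slash_SL γ
  have hf'n : DshNice f' := dshNice_of_inv_cusp hf' hf'c
  set g : ℍ → ℂ := f' - ε (p : ZMod N) • ⇑f with hgdef
  have hg : DshInv 1 N g := hf'.sub (hf.smul _)
  have hgc : DshCusp 1 g := hf'c.sub (hfc.smul _)
  have hgn : DshNice g := dshNice_of_inv_cusp hg hgc
  set u : ℍ → ℂ := dshTWith 1 p γ ⇑f - qCoeff f p • ⇑f with hudef
  have hu : DshInv 1 N u := (hf.dshTWith hp hpN hγ hγd).sub (hf.smul _)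
  have huc : DshCusp 1 u := (hfc.dshTWith p γ).sub (hfc.smul _)
  have hun : DshNice u := dshNice_of_inv_cusp hu huc
  have hgδn : DshNice (g ∣[(1 : ℤ)] heckeDiagMatrix p) := hgn.slash_heckeDiagMatrix 1 p
  have key : u = g ∣[(1 : ℤ)] heckeDiagMatrix p := by
    refine hun.ext_qCoeff hgδn fun n ↦ ?_
    have hTn := hT p hp hpN n
    rw [hudef, dshTWith_def, (((hfn.heckeU 1 p).add (hf'n.slash_heckeDiagMatrix 1 p))).qCoeff_sub
      (hfn.smul _), (hfn.heckeU 1 p).qCoeff_add (hf'n.slash_heckeDiagMatrix 1 p),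
      hfn.qCoeff_heckeU 1 hp.ne_zero, hf'n.qCoeff_slash_heckeDiagMatrix 1 hp.ne_zero,
      hfn.qCoeff_smul, hgn.qCoeff_slash_heckeDiagMatrix 1 hp.ne_zero]
    rw [mul_comm n p]
    split_ifs with hpn
    · rw [if_pos hpn] at hTn
      rw [hgdef, hf'n.qCoeff_sub (hfn.smul _), hfn.qCoeff_smul]
      simp only [sub_self, zpow_zero, one_mul]
      linear_combination hTn
    · rw [if_neg hpn] at hTn
      linear_combination hTn
  have hgδ : DshInv 1 N (g ∣[(1 : ℤ)] heckeDiagMatrix p) := key ▸ hu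
  have hg0 : g = 0 := dsh_Vp_lemma hp hpN hg hgc hgδ
  exact sub_eq_zero.mp hg0

/-- (DS-0a) `f` has nebentypus `ε`: `f∣γ = ε(d_γ) f` for all `γ ∈ Γ₀(N)`. -/
theorem dsh_diamond {γ : SL(2, ℤ)} (hγ : γ ∈ Gamma0 N) :
    (⇑f) ∣[(1 : ℤ)] γ = ε (dshD N γ) • ⇑f := by
  have hunit : IsUnit (dshD N γ) := IsUnit.of_mul_eq_one _ (dshD_mul_inv hγ)
  obtain ⟨p, hpgt, hp, hpd⟩ := Nat.forall_exists_prime_gt_and_eq_mod hunit N
  have hpN : ¬ p ∣ N := fun h ↦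
    absurd (Nat.le_of_dvd (Nat.pos_of_ne_zero (NeZero.ne N)) h) (not_le.mpr hpgt)
  rw [← hpd]
  exact dsh_diamond_prime ε f hT hp hpN hγ hpd.symm

/-- (DS-0b) `f` is a `T_p`-eigenvector with eigenvalue `a_p`, for every prime `p ∤ N`. -/
theorem dsh_heckeT_eigen {p : ℕ} (hp : p.Prime) (hpN : ¬ p ∣ N) :
    heckeU 1 p ⇑f + ε (p : ZMod N) • ((⇑f) ∣[(1 : ℤ)] heckeDiagMatrix p) = qCoeff f p • ⇑f := by
  obtain ⟨γ, hγ, hγd, -⟩ := dsh_exists_gamma N hp hpN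
  have hf : DshInv 1 N ⇑f := dshInv_of_slashInvariantFormClass f
  have hfc : DshCusp 1 ⇑f := dshCusp_of_cuspFormClass f
  have hfn : DshNice ⇑f := dshNice_of_inv_cusp hf hfc
  have hd := dsh_diamond_prime ε f hT hp hpN hγ hγd
  have h1 : (ε (p : ZMod N) • ⇑f) ∣[(1 : ℤ)] heckeDiagMatrix p
      = ε (p : ZMod N) • ((⇑f) ∣[(1 : ℤ)] heckeDiagMatrix p) := by
    rw [ModularForm.smul_slash, σ_heckeDiagMatrix, ContinuousAlgEquiv.refl_apply]
  rw [← h1, ← hd]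
  -- now: `dshTWith 1 p γ f = a_p • f`, by comparing q-expansions
  have hf'n : DshNice ((⇑f) ∣[(1 : ℤ)] γ) := dshNice_of_inv_cusp (hf.slash hγ) (hfc.slash_SL γ)
  refine ((hfn.heckeU 1 p).add (hf'n.slash_heckeDiagMatrix 1 p)).ext_qCoeff (hfn.smul _) fun n ↦ ?_
  have hTn := hT p hp hpN n
  rw [(hfn.heckeU 1 p).qCoeff_add (hf'n.slash_heckeDiagMatrix 1 p),
    hfn.qCoeff_heckeU 1 hp.ne_zero, hf'n.qCoeff_slash_heckeDiagMatrix 1 hp.ne_zero,
    hfn.qCoeff_smul, hd, mul_comm n p]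
  split_ifs with hpn
  · rw [if_pos hpn] at hTn
    rw [hfn.qCoeff_smul]
    simp only [sub_self, zpow_zero, one_mul]
    linear_combination hTn
  · rw [if_neg hpn] at hTn
    linear_combination hTn

end

end Fermat.Agent.DS
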