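/-
DS-H file 14: (DS-0) restated with the bundled operators: under the hypotheses of S48,
`⟨d⟩ f = ε(d) f` and `T_p f = a_p f` in `S₁(Γ₁(N))`.
-/
import Fermat.Agent.Lib.DS.Hecke.DS0
import Fermat.Agent.Lib.DS.Hecke.Level
import Fermat.Agent.Lib.DS.Hecke.Coeffs

set_option autoImplicit false

noncomputable section

namespace Fermat.Agent.DS

open UpperHalfPlane OnePoint CongruenceSubgroup ModularForm Matrix.SpecialLinearGroup
open ModularFormClass
open scoped MatrixGroups ModularForm Manifold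

variable {N : ℕ} [NeZero N] (ε : DirichletCharacter ℂ N) (f : CuspForm (Gamma1 N) 1)
  (hT : ∀ p : ℕ, p.Prime → ¬ p ∣ N → ∀ n : ℕ,
    qCoeff f (p * n) + ε (p : ZMod N) * (if p ∣ n then qCoeff f (n / p) else 0) =
      qCoeff f p * qCoeff f n)

include hT

theorem dsh_dshDiamond_eigen (d : (ZMod N)ˣ) : dshDiamond 1 N d f = ε (d : ZMod N) • f := by
  refine DFunLike.coe_injective ?_
  rw [coe_dshDiamond, dsh_diamond ε f hT (dshGammaU_mem N d), dshD_dshGammaU]
  rfl

theorem dsh_dshTLin_eigen {p : ℕ} (hp : p.Prime) (hpN : ¬ p ∣ N) :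
    dshTLin 1 hp hpN f = qCoeff f p • f := by
  refine DFunLike.coe_injective ?_
  rw [coe_dshTLin_eq_add, dsh_dshDiamond_eigen ε f hT, coe_dshUnit, FunLike.coe_smul,
    ModularForm.smul_slash, σ_heckeDiagMatrix, ContinuousAlgEquiv.refl_apply,
    dsh_heckeT_eigen ε f hT hp hpN]
  rfl

omit [NeZero N] in
/-- Prime-power recursion of the coefficients (directly from `hT`). -/
theorem dsh_qCoeff_prime_pow {p : ℕ} (hp : p.Prime) (hpN : ¬ p ∣ N) (r : ℕ) :
    qCoeff f (p ^ (r + 2)) = qCoeff f p * qCoeff f (p ^ (r + 1)) - ε (p : ZMod N) * qCoeff f (p ^ r) :=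
  dsh_coeff_prime_pow hp (hT p hp hpN) r

omit [NeZero N] in
/-- Multiplicativity of the coefficients on integers prime to `N` (from `hT` and `a_1 = 1`). -/
theorem dsh_qCoeff_mul_of_coprime (hf₁ : qCoeff f 1 = 1) {m n : ℕ} (hmN : m.Coprime N)
    (hmn : m.Coprime n) : qCoeff f (m * n) = qCoeff f m * qCoeff f n :=
  dsh_coeff_mul_of_coprime (ε := fun p ↦ ε (p : ZMod N)) hf₁ hT m hmN n hmn

end Fermat.Agent.DS
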